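import Fermat.Agent.PRG.Main
import Fermat.Agent.SSR.Main

/-!
# Removing `p` from the level
-/

set_option autoImplicit false
set_option linter.unusedSectionVars false
set_option linter.style.haveILetI false

noncomputable section

namespace Fermat.Agent.PRG

open WeierstrassCurve WeierstrassCurve.Affine WeierstrassCurve.Affine.Point
open Fermat.Agent.EC Fermat.Agent.PRem

local notation "Ω" => AlgebraicClosure ℚ

/-- **`p`-removal** for a curve which is semistable at `p`, with `p ∣ v_p(Δ)`. -/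
theorem remove_p (W : WeierstrassCurve ℤ) (hΔ : W.Δ ≠ 0) {p : ℕ} [hp : Fact p.Prime]
    (hirr : W.ModRepIsIrreducible p) (hss : (p : ℤ) ∣ W.Δ → ¬ (p : ℤ) ∣ W.c₄)
    (hflat : (p : ℤ) ∣ W.Δ → p ∣ padicValInt p W.Δ) {M : ℕ} (hM : 0 < M)
    (hOk : Ok p M) (hpM : ¬ p ∣ M) (hmod : W.IsResiduallyModularOfLevel p (p * M)) :
    W.IsResiduallyModularOfLevel p M := by
  have hp2 : p ≠ 2 := by have := hOk.three_le; omega
  by_cases hd : (p : ℤ) ∣ W.Δ
  · exact remove_mult W hΔ hp2 hirr hd (hss hd) (hflat hd) hM hOk hpM hmod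
  obtain ⟨A, hA⟩ := Places.exists_liesOverPrime Ω hp.out
  by_cases h : ∃ P : ((W.map (Int.castRingHom ℚ))⁄Ω).Point, P ≠ 0 ∧ p • P = 0 ∧ xc P ∈ A
  · obtain ⟨P, hP, hpP, hx⟩ := h
    exact remove_ord W hΔ hp2 hirr hd hM hOk hpM hA hP hpP hx hmod
  · push Not at h
    exact SSR.ss_removal W hΔ hp2 hirr hM hpM hA h hmod

/-- `Ok` from a prime factor `≡ 11 mod 12` -/
theorem ok_of_prime {p : ℕ} (hp : p.Prime) (hp2 : p ≠ 2) {M r : ℕ} (hr : r.Prime) (hrM : r ∣ M)
    (h11 : r % 12 = 11) : Ok p M := by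
  by_cases h5 : 5 ≤ p
  · exact Or.inl h5
  · right
    have h2 := hp.two_le
    have h3 : p = 3 := by
      have : p ≠ 4 := by rintro rfl; exact absurd hp (by norm_num)
      omega
    exact ⟨h3, ThmC.nuTwo_eq_zero_of_prime hr h11 hrM, ThmC.nuThree_eq_zero_of_prime hr h11 hrM⟩

end Fermat.Agent.PRG
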