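import Fermat.Agent.PRG.Thick
import Fermat.Agent.PRem.Slope2

/-!
# Orders at the nodes for admissible `(p, M)`
-/

set_option autoImplicit false
set_option linter.unusedSectionVars false
set_option linter.style.haveILetI false

noncomputable section

namespace Fermat.Agent.PRG

open AlgebraicCurve Fermat.Agent.Curve Fermat.Agent.RR Fermat.Agent.Red Fermat.Agent.Nod Module
  Polynomial Fermat.Agent.PRem

theorem split_dvd {p : ℕ} (hp : p.Prime) {ν n : ℤ} (hν : 0 < ν) (hν12 : ν ∣ 12)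
    (hkp : ∀ k' : ℤ, 12 = ν * k' → ¬ (p : ℤ) ∣ k')
    (h : ∀ i : ℤ, ∃ α : ℤ, 12 * n + p * i * ν ≤ p * 12 * α ∧
      p * 12 * α ≤ p * 12 + 12 * n + p * i * ν - p * ν) : (p : ℤ) ∣ n := by
  obtain ⟨k, hk⟩ := hν12
  have hk0 : 0 < k := by
    by_contra hcon
    have : k ≤ 0 := by omega
    nlinarith
  have hpk : ¬ (p : ℤ) ∣ k := hkp k hk
  have hpp : (0 : ℤ) < p := by exact_mod_cast hp.pos
  by_contra hcon
  have hkn : ¬ (p : ℤ) ∣ k * n := by
    intro hd
    rcases (Nat.prime_iff_prime_int.1 hp).dvd_or_dvd hd with h1 | h1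
    · exact hpk h1
    · exact hcon h1
  have hr0 : 0 ≤ k * n % p := Int.emod_nonneg _ hpp.ne'
  have hrp : k * n % p < p := Int.emod_lt_of_pos _ hpp
  have hr1 : k * n % p ≠ 0 := fun h0 => hkn (Int.dvd_of_emod_eq_zero h0)
  have hqr : k * n = p * (k * n / p) + k * n % p := (Int.mul_ediv_add_emod _ _).symm
  obtain ⟨α, h1, h2⟩ := h (-(k * n / p))
  set r := k * n % p
  set q := k * n / p
  have h3 : p * (k * ν) * α * 1 ≥ (r : ℤ) * ν := by
    have e : p * (k * ν) * α * 1 = p * 12 * α := by rw [hk]; ring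
    rw [e]
    have e2 : 12 * n + p * (-q) * ν = r * ν := by
      have : 12 * n = ν * (k * n) := by rw [hk]; ring
      rw [this, hqr]; ring
    linarith
  have h4 : p * (k * ν) * α * 1 ≤ p * (k * ν) + r * ν - p * ν := by
    have e : p * (k * ν) * α * 1 = p * 12 * α := by rw [hk]; ring
    rw [e]
    have e2 : 12 * n + p * (-q) * ν = r * ν := by
      have : 12 * n = ν * (k * n) := by rw [hk]; ring
      rw [this, hqr]; ring
    have e3 : (p : ℤ) * (k * ν) = p * 12 := by rw [hk]; ring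
    linarith
  have h5 : (r : ℤ) ≤ p * k * α := by
    have : r * ν ≤ (p * k * α) * ν := by linarith
    exact le_of_mul_le_mul_right this hν
  have h6 : p * k * α ≤ p * k + r - p := by
    have : (p * k * α) * ν ≤ (p * k + r - p) * ν := by linarith
    exact le_of_mul_le_mul_right this hν
  have hpk0 : (0 : ℤ) < p * k := by positivity
  have hr2 : 0 < r := lt_of_le_of_ne hr0 (Ne.symm hr1)
  have h7 : 0 < α := by
    by_contra hc
    have h9 : α ≤ 0 := by omega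
    have h10 : p * k * α ≤ 0 := mul_nonpos_of_nonneg_of_nonpos hpk0.le h9
    linarith
  have h8 : α < 1 := by
    by_contra hc
    have : 1 ≤ α := by omega
    nlinarith [mul_le_mul_of_nonneg_left this hpk0.le]
  omega

variable {A K F k E₁ E₂ : Type*} [CommRing A] [IsDomain A] [ValuationRing A]
  [Field K] [Algebra A K] [IsFractionRing A K] [Field F] [Algebra K F] [Algebra A F]
  [IsScalarTower A K F] [Field k] [Algebra A k] [Field E₁] [Field E₂] [Algebra k E₁]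
  [Algebra k E₂] [Algebra A E₁] [Algebra A E₂] [IsScalarTower A k E₁] [IsScalarTower A k E₂]
  [IsAlgClosed K] [IsAlgClosed k] [CharZero K] [FunField K F] [FunField k E₁] [FunField k E₂]

variable {ι₀ : Type*} [Fintype ι₀] [Nonempty ι₀]
  {G : GaussData A K F k (E₁ × E₂) ι₀} {Q : RatStr G}
  {hk : Function.Surjective (algebraMap A k)}
  {hspan : ∀ x : F, ∃ q : K[X], q ≠ 0 ∧ ∃ P : ι₀ → K[X], aeval G.t q * x = G.comb P}
  {ι : Type*} [Finite ι] {𝒩 : Nodes k E₁ E₂ ι} (H : NodMod G hk hspan 𝒩)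

/-- **The split case**: for rational functions over an unramified base, orders of the reduction
are divisible by `p`. -/
theorem dvd_of_unramified {p : ℕ} (hp : p.Prime) {φ : F} {c₀ : ℕ}
    (T : Thick Q φ 12 c₀) {f : F} (hf : UW G f) (hfF : f ∈ Q.fld)
    (hfd : ∀ v : Place K F, (p : ℤ) ∣ v.ord f) (H : NodMod G hk hspan 𝒩)
    (hkp : ∀ (j : Nd G hk 𝒩) (k' : ℤ), 12 = (𝒩.v j).ord (r1 G φ) * k' → ¬ (p : ℤ) ∣ k')
    (v : Place k E₁) :
    (p : ℤ) ∣ v.ord (r1 G f) := by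
  obtain ⟨D, hD⟩ := exists_divisor hp.ne_zero hf.ne_zero hfd
  by_cases hv : ∃ j : Nd G hk 𝒩, 𝒩.v j = v
  · obtain ⟨j, rfl⟩ := hv
    have hν := T.pos H j
    have hν12 : (𝒩.v j).ord (r1 G φ) ∣ 12 := by
      refine thick_dvd hν fun i => ?_
      obtain ⟨a₀, ha₀⟩ := T.node H (p := 1) (f := 1) UW.one (D := 0) (one_mem _)
        (fun v => by simp) one_ne_zero i j
      obtain ⟨α, -, h1, h2⟩ := ha₀ a₀ le_rfl
      refine ⟨α, ?_, ?_⟩
      · rw [r1_one, Place.ord_one] at h1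
        push_cast at h1
        linarith
      · rw [r1_one, Place.ord_one] at h2
        push_cast at h2
        linarith
    refine PRG.split_dvd hp hν hν12 (hkp j) fun i => ?_
    obtain ⟨a₀, ha₀⟩ := T.node H hf hfF hD hp.ne_zero i j
    obtain ⟨α, -, h1, h2⟩ := ha₀ a₀ le_rfl
    exact ⟨α, by exact_mod_cast h1, by exact_mod_cast h2⟩
  · push Not at hv
    obtain ⟨a₀, ha₀⟩ := RatStr.smooth H hf hfF hD hp.ne_zero
    obtain ⟨x, -, -, -, -, h⟩ := ha₀ a₀ le_rfl v hv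
    exact ⟨v.ord (r1 G x) + DD k (tb G).1 a₀ 0 v, by linarith⟩

include H in
/-- **The nonsplit case**: orders at the nodes are divisible by `p`. -/
theorem dvd_node {σ : SemilinearAut K F} {z : F} {θ : k} (S : WildAut Q σ z θ)
    {p : ℕ} (hp : p.Prime) [CharP k p]
    {φ : F} {c₀ : ℕ} (T : Thick Q φ (12 * (p * (p - 1))) c₀)
    {f : F} (hf : UW G f) (hfF : f ∈ Q.fld)
    {D D₀ : Divisor K F} (hD : ∀ v, (p : ℤ) * D v = v.ord f)
    {Fh h : F} (hF : Fh = 1 + algebraMap A F Q.ϖ * h)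
    (hh : h ∈ G.W) (hDσ : σ • D + divisor K Fh = D + D₀) (T₀ : Triv G D₀ (Q.ϖ ^ 2))
    {c : k} (h1 : r1 G h = algebraMap k E₁ c) (h2 : r2 G h = algebraMap k E₂ c)
    (j : Nd G hk 𝒩) (hν12 : (𝒩.v j).ord (r1 G φ) ∣ 12)
    (hkp : ∀ k' : ℤ, 12 = (𝒩.v j).ord (r1 G φ) * k' → ¬ (p : ℤ) ∣ k') :
    (p : ℤ) ∣ (𝒩.v j).ord (r1 G f) := by
  have hDr : Q.IsRat D := RatStr.isRat_of_mul hfF hp.ne_zero hD
  have hν := T.pos H j
  set ν := (𝒩.v j).ord (r1 G φ) with hνdef
  set n := (𝒩.v j).ord (r1 G f) with hn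
  obtain ⟨k', hk'⟩ := hν12
  have hk0 : 0 < k' := by
    by_contra hcon
    have : k' ≤ 0 := by omega
    nlinarith
  have hpk : ¬ (p : ℤ) ∣ k' := hkp k' hk'
  have hpp : (0 : ℤ) < p := by exact_mod_cast hp.pos
  have hp1 : ((p - 1 : ℕ) : ℤ) = (p : ℤ) - 1 := by
    rw [Nat.cast_sub hp.one_le, Nat.cast_one]
  have hp1pos : (0 : ℤ) < (p : ℤ) - 1 := by
    have : (2 : ℤ) ≤ p := by exact_mod_cast hp.two_le
    linarith
  by_contra hcon
  -- the critical level
  set r : ℤ := (n.natAbs : ℤ) with hr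
  have hrn : 0 ≤ r * p - n := by
    have h3 : n ≤ r := Int.le_natAbs
    have h4 : 0 ≤ r := Int.natCast_nonneg _
    nlinarith
  obtain ⟨i, hi⟩ : ∃ i : ℕ, (i : ℤ) = ((p : ℤ) - 1) * k' * (r * p - n) :=
    ⟨_, Int.toNat_of_nonneg (mul_nonneg (mul_nonneg hp1pos.le hk0.le) hrn)⟩
  have hpi : ¬ (p : ℤ) ∣ (i : ℤ) := by
    rw [hi]
    intro hd
    have hpp' := Nat.prime_iff_prime_int.1 hp
    rcases hpp'.dvd_or_dvd hd with h3 | h3
    · rcases hpp'.dvd_or_dvd h3 with h4 | h4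
      · have h5 := Int.le_of_dvd hp1pos h4
        linarith
      · exact hpk h4
    · apply hcon
      have : n = r * p - (r * p - n) := by ring
      rw [this]
      exact dvd_sub (Dvd.intro_left _ rfl) h3
  have hik : ((i : ℕ) : k) ≠ 0 := by
    intro h0
    apply hpi
    exact_mod_cast (CharP.cast_eq_zero_iff k p i).1 h0
  obtain ⟨a₀, ha₀⟩ := T.node H hf hfF hD hp.ne_zero i j
  obtain ⟨α, ⟨x, hxF, hxW, hxL, hx1, hxα⟩, h3, h4⟩ := ha₀ a₀ le_rfl
  rw [← hνdef, ← hn] at h3 h4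
  have hm : ((12 * (p * (p - 1)) : ℕ) : ℤ) = 12 * (p * ((p : ℤ) - 1)) := by
    push_cast
    rw [hp1]
  rw [hm] at h3 h4
  have key : 12 * (p * ((p : ℤ) - 1)) * n + p * i * ν = p * (12 * (p * ((p : ℤ) - 1))) * r := by
    rw [hi, hk']; ring
  rw [key] at h3
  have h4' : p * (12 * (p * ((p : ℤ) - 1))) * α ≤ p * (12 * (p * ((p : ℤ) - 1))) +
      p * (12 * (p * ((p : ℤ) - 1))) * r - p * ν := by linarith
  have hM : (0 : ℤ) < p * (12 * (p * ((p : ℤ) - 1))) := by positivity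
  have hrα : r ≤ α := le_of_mul_le_mul_left h3 hM
  have hαr : α < r + 1 := by
    refine lt_of_mul_lt_mul_left (a := p * (12 * (p * ((p : ℤ) - 1)))) ?_ hM.le
    nlinarith [mul_pos hpp hν]
  have hα : α = r := by omega
  obtain ⟨b, hb⟩ := S.jump (hk := hk) (hspan := hspan) hDr hF hh hDσ T₀ h1 h2
  have h5 := hb a₀ i x hik hxF hxW (by rwa [zpow_natCast] at hxL)
  obtain ⟨x', hx'W, hx'L, hx'1⟩ := RatStr.mem_AA.1 h5
  rw [← r1_of hx'W] at hx'1
  have h6 := T.lower H hf hD hp.ne_zero hx'W hx'L (by rw [hx'1]; exact hx1) j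
  rw [hx'1, hxα, hα, ← hνdef, ← hn, hm] at h6
  have h7 := mul_pos hpp hν
  have h8 : 12 * (p * ((p : ℤ) - 1)) * n + p * (i + 1) * ν =
      12 * (p * ((p : ℤ) - 1)) * n + p * i * ν + p * ν := by ring
  rw [h8, key] at h6
  linarith

end Fermat.Agent.PRG
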