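import Fermat.Agent.PRG.Comp
import Fermat.Agent.PRG.Node
import Fermat.Agent.PRem.Final44

/-!
# Removing `p` from the level: assembly for admissible `(p, M)`
-/

set_option autoImplicit false
set_option linter.unusedSectionVars false
set_option linter.style.haveILetI false

noncomputable section

namespace Fermat.Agent.PRG

open ModularCurve Polynomial IntermediateField Fermat.Agent.ModPoly Fermat.Agent.Red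
  Fermat.Agent.RedMod Fermat.Agent.Cusp Fermat.Agent.SemiSt AlgebraicCurve Fermat.Agent.Curve
  Fermat.Agent.RR Fermat.Agent.Nod Fermat.Agent.Flat Fermat.Agent.FlatRam Fermat.Agent.Places
  Module Fermat.Agent.PRem

local notation "Ω" => AlgebraicClosure ℚ

section One

variable {A : ValuationSubring (AlgebraicClosure ℚ)} {p : ℕ} [hp : Fact p.Prime]
  {M : ℕ} [NeZero M] {k : Type*} [Field k] [Algebra A k] [CharP k p] [IsAlgClosed k]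
  {hk : Function.Surjective (algebraMap A k)} {hco : p.Coprime M} {hM : (M : k) ≠ 0} {b : A}
  [Algebra A (FF Ω (p * M))] [IsScalarTower A Ω (FF Ω (p * M))]
  [Algebra A (FF k M)] [IsScalarTower A k (FF k M)]
  [FunField k (FF k M)] [FunField Ω (FF Ω M)] [FunField Ω (FF Ω (p * M))]
  {E : IntermediateField (K0 A) Ω} [FiniteDimensional (K0 A) E]
  {E₀ : IntermediateField (K0 A) Ω} [FiniteDimensional (K0 A) E₀]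
  {e : ℕ} {ϖ : A} {Q : RatStr (ng Ω hco hk hM b)} {e₀ : ℕ} {ϖ₀ : A}
  {Q₀ : RatStr (ng Ω hco hk hM b)} {c : ℕ → ℤ} {P : ℕ → Prop}
  (H : NodMod (ng Ω hco hk hM b) hk (ng_hspan hco hk hM b) (fd k p M).nodes)


/-- orders at all places -/
theorem dvd_all {σ : Ω ≃+* Ω} {z : FF Ω (p * M)} {θ : k}
    (S : WildAut Q (galAut (p * M) σ) z θ) {c₀ : ℕ}
    (T : Thick Q (rF Ω p M)⁻¹ (12 * (p * (p - 1))) c₀)
    (h12 : ∀ j : Nd (ng Ω hco hk hM b) hk (fd k p M).nodes,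
      ((fd k p M).nodes.v j).ord (r1 (ng Ω hco hk hM b) (rF Ω p M)⁻¹) ∣ 12)
    (hkp : ∀ (j : Nd (ng Ω hco hk hM b) hk (fd k p M).nodes) (k' : ℤ),
      12 = ((fd k p M).nodes.v j).ord (r1 (ng Ω hco hk hM b) (rF Ω p M)⁻¹) * k' → ¬ (p : ℤ) ∣ k')
    {f : FF Ω (p * M)} (hf : UW (ng Ω hco hk hM b) f) (hfF : f ∈ Q.fld)
    {D D₀ : Divisor Ω (FF Ω (p * M))} (hD : ∀ v, (p : ℤ) * D v = v.ord f)
    {Fh h : FF Ω (p * M)} (hF : Fh = 1 + algebraMap A (FF Ω (p * M)) Q.ϖ * h)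
    (hh : h ∈ (ng Ω hco hk hM b).W) (hDσ : galAut (p * M) σ • D + divisor Ω Fh = D + D₀)
    (T₀ : Triv (ng Ω hco hk hM b) D₀ (Q.ϖ ^ 2)) {a : k}
    (h1 : r1 (ng Ω hco hk hM b) h = algebraMap k (FF k M) a)
    (h2 : r2 (ng Ω hco hk hM b) h = algebraMap k (FF k M) a)
    (H : NodMod (ng Ω hco hk hM b) hk (ng_hspan hco hk hM b) (fd k p M).nodes)
    (v : Place k (FF k M)) : (p : ℤ) ∣ v.ord (r1 (ng Ω hco hk hM b) f) := by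
  by_cases hv : ∃ j : Nd (ng Ω hco hk hM b) hk (fd k p M).nodes, (fd k p M).nodes.v j = v
  · obtain ⟨j, rfl⟩ := hv
    exact PRG.dvd_node H S hp.out T hf hfF hD hF hh hDσ T₀ h1 h2 j (h12 j) (hkp j)
  · push Not at hv
    obtain ⟨a₀, ha₀⟩ := RatStr.smooth H hf hfF hD hp.out.ne_zero
    obtain ⟨x, -, -, -, -, h⟩ := ha₀ a₀ le_rfl v hv
    exact ⟨v.ord (r1 (ng Ω hco hk hM b) x) + DD k (tb (ng Ω hco hk hM b)).1 a₀ 0 v, by linarith⟩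

include H in
/-- **The split case.** -/
theorem split_case [hN : Nonempty (Nd (ng Ω hco hk hM b) hk (fd k p M).nodes)]
    (ι : Ω →+* ℂ) (hA : A.LiesOverPrime p) (hOk : Ok p M) (hPp : ∀ ℓ, P ℓ → ℓ ≠ p)
    (R : RS E 1 ϖ Q) {ξ : Kum.XL (p * M) p} (hξ : ξ ≠ 0)
    (hfix : ∀ σ : Ω ≃ₐ[ℚ] Ω, (∀ x ∈ E, σ x = x) → Kum.rhoF ι p σ ξ = ξ)
    (hE : EigCls c P ξ) {ℓ : ℕ} [hl : Fact ℓ.Prime] (hℓN : ¬ ℓ ∣ p * M) (hPℓ : P ℓ)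
    (hne : ¬ (p : ℤ) ∣ c ℓ - ℓ - 1) : CONC p M c P := by
  by_contra hcon
  obtain ⟨f, hfF, hf, hcl⟩ := R.exists_rep ι hfix hE hℓN hPℓ (hPp ℓ hPℓ) hne
  obtain ⟨c₀, T⟩ := R.exists_thick one_pos
  rw [mul_one] at T
  have hEf := hE.eig hcl
  have h1 : ∃ y, r1 (ng Ω hco hk hM b) f = y ^ p :=
    (PRG.comp1 ι hOk hPp hf hEf fun v => PRG.dvd_of_unramified hp.out T hf hfF hcl.kd H
      (fun j k' h => thick_ok hOk ι H R j h) v).resolve_right hcon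
  have h2 : ∃ y, r2 (ng Ω hco hk hM b) f = y ^ p :=
    (PRG.comp2 ι hOk hPp hf hEf fun v => by
      rw [← r1_w hf.mem]
      exact PRG.dvd_of_unramified hp.out T (uw_w hf) (R.w_fld hfF)
        (dvd_ord_w hf.ne_zero hcl.kd) H (fun j k' h => thick_ok hOk ι H R j h) v).resolve_right hcon
  obtain ⟨f', hf'F, hf', e1, e2, hcl'⟩ := normalize H hfF hf hcl h1 h2
  obtain ⟨D, hD⟩ := exists_divisor hp.out.ne_zero hf'.ne_zero hcl'.kd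
  obtain ⟨u, hu⟩ := R.hpe
  obtain ⟨x, hx⟩ := split_final H R.hAt (hrank_of hk hA) (by have := hOk.three_le; omega) hu hf'F hf'.mem
    (π_eq_one hf'.mem e1 e2) hD
  have hx0 : x ≠ 0 := by
    rintro rfl
    rw [zero_pow hp.out.ne_zero] at hx
    exact hf'.ne_zero hx.symm
  apply hξ
  rw [← hx] at hcl'
  exact hcl'.unique (HasCls.pow_self ι hx0)

include H in
/-- eigenclasses with trivial reduction are fixed by wild automorphisms -/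
theorem final_contra [hN : Nonempty (Nd (ng Ω hco hk hM b) hk (fd k p M).nodes)]
    {ι : Ω →+* ℂ} (hA : A.LiesOverPrime p) (hOk : Ok p M) (hPp : ∀ ℓ, P ℓ → ℓ ≠ p)
    (R : RS E (p * (p - 1)) ϖ Q) {σ : Ω ≃ₐ[K0 A] Ω} {z θ}
    (S : WildAut Q (galAut (p * M) (σ : Ω ≃+* Ω)) z θ)
    {f : FF Ω (p * M)} {ξ : Kum.XL (p * M) p} (hfF : f ∈ Q.fld)
    (hf : UW (ng Ω hco hk hM b) f) (h1 : r1 (ng Ω hco hk hM b) f = 1)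
    (h2 : r2 (ng Ω hco hk hM b) f = 1) (hcl : HasCls ι p f ξ) (hE : EigCls c P ξ)
    (hC : ¬ CONC p M c P) : Kum.rhoF ι p (AlgEquiv.restrictScalars ℚ σ) ξ = ξ := by
  obtain ⟨u, hu⟩ := R.hpe
  obtain ⟨D, hD⟩ := exists_divisor hp.out.ne_zero hf.ne_zero hcl.kd
  have hEf := hE.eig hcl
  have hp1 := hp.out.one_lt
  have hpp : p ≤ p * (p - 1) + 1 := by
    obtain ⟨d, rfl⟩ : ∃ d, p = d + 2 := ⟨p - 2, by omega⟩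
    have : d + 2 - 1 = d + 1 := by omega
    rw [this]; nlinarith
  obtain ⟨κ, hκ, hκF, L₁⟩ := Lev.base H hu hpp hfF hf.mem (π_eq_one hf.mem h1 h2) hD
  have hκ0 : ((κ : A) : Ω) ≠ 0 := by
    intro h0
    have : κ = 0 := Subtype.ext h0
    rw [this, map_zero] at hκ
    exact zero_ne_one hκ
  have e1 : (algebraMap A (FF Ω (p * M)) κ)⁻¹ = algebraMap Ω _ ((κ : Ω)⁻¹) := by
    rw [algA, map_inv₀]
  have hEf1 : Eig c P (f * (algebraMap A (FF Ω (p * M)) κ)⁻¹) := by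
    rw [e1]; exact hEf.mul_const (inv_ne_zero hκ0)
  have hcl1 : HasCls ι p (f * (algebraMap A (FF Ω (p * M)) κ)⁻¹) ξ := by
    rw [e1]; exact hcl.mul_const (inv_ne_zero hκ0)
  obtain ⟨f', D', L, U, hU, hU0, c', hc', hc0, ⟨c₁, rfl⟩, e2⟩ := exists_lev H hu L₁
    (fun n f' D' hn hnp L hR Hf hHf hfe k1 k2 => by
      obtain ⟨U, hU, hU0, c', hc', hc0, ⟨c₁, rfl⟩, e2⟩ := hR
      have hEf' : Eig c P f' := by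
        rw [e2]
        exact (hEf1.mul_pow hU0).mul_const fun h => hc0 (by rw [h, map_zero])
      exact ⟨(PRG.compA1 ι hOk hPp hu hn hnp hEf' hHf hfe k1).resolve_right hC,
        (PRG.compA2 ι hOk hPp hu hn hnp hEf' hHf hfe k2).resolve_right hC⟩) p hp1.le le_rfl
  have hcl' : HasCls ι p f' ξ := by
    rw [e2]
    exact (hcl1.mul_pow hU0).mul_const fun h => hc0 (by rw [h, map_zero])
  obtain ⟨x, hx⟩ := lev_final H R.hAt (hrank_of hk hA) S hu L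
  rw [galAut_smul] at hx
  have hx' : x ^ p = act (p * M) (σ : Ω ≃+* Ω) f' * f'⁻¹ := hx
  have h3 : HasCls ι p (act (p * M) (σ : Ω ≃+* Ω) f')
      (Kum.rhoF ι p (AlgEquiv.restrictScalars ℚ σ) ξ) :=
    hcl'.gal (AlgEquiv.restrictScalars ℚ σ)
  have h4 := h3.div hcl'
  rw [← hx'] at h4
  have hx0 : x ≠ 0 := by
    rintro rfl
    rw [zero_pow hp.out.ne_zero] at h4
    exact h4.ne_zero rfl
  exact sub_eq_zero.1 (h4.unique (HasCls.pow_self ι hx0))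

include H in
/-- one side of the nonsplit case -/
theorem side [hN : Nonempty (Nd (ng Ω hco hk hM b) hk (fd k p M).nodes)] (ι : Ω →+* ℂ)
    (hOk : Ok p M)
    {E₁ : IntermediateField (K0 A) Ω} [FiniteDimensional (K0 A) E₁] {ϖ₁ : A}
    {Q₁ : RatStr (ng Ω hco hk hM b)} (R₁ : RS E₁ 1 ϖ₁ Q₁)
    (R : RS E (p * (p - 1)) ϖ Q) {v : A} (hv : Q₀.ϖ = Q.ϖ ^ 2 * v) {σ : Ω ≃ₐ[K0 A] Ω} {z θ}
    (S : WildAut Q (galAut (p * M) (σ : Ω ≃+* Ω)) z θ)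
    {f f₀ g h : FF Ω (p * M)} (hfF : f ∈ Q.fld) (hf : UW (ng Ω hco hk hM b) f)
    (hfk : ∀ v : Place Ω (FF Ω (p * M)), (p : ℤ) ∣ v.ord f)
    (hf₀F : f₀ ∈ Q₀.fld) (hf₀ : UW (ng Ω hco hk hM b) f₀) (a1 : r1 (ng Ω hco hk hM b) f₀ = 1)
    (a2 : r2 (ng Ω hco hk hM b) f₀ = 1)
    (hf₀k : ∀ v : Place Ω (FF Ω (p * M)), (p : ℤ) ∣ v.ord f₀) (hg : g ≠ 0)
    {κ : Ω} (hκ : κ ≠ 0) (hrel : act (p * M) (σ : Ω ≃+* Ω) f =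
      f * f₀ * (algebraMap Ω (FF Ω (p * M)) κ * g ^ p)) (hh : h ∈ (ng Ω hco hk hM b).W)
    (hgh : g⁻¹ = 1 + algebraMap A (FF Ω (p * M)) Q.ϖ * h) :
    (∃ a : k, r1 (ng Ω hco hk hM b) h = algebraMap k (FF k M) a) ∧
    ∀ a : k, r1 (ng Ω hco hk hM b) h = algebraMap k (FF k M) a →
      r2 (ng Ω hco hk hM b) h = algebraMap k (FF k M) a →
      ∀ v : Place k (FF k M), (p : ℤ) ∣ v.ord (r1 (ng Ω hco hk hM b) f) := by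
  obtain ⟨D, hD⟩ := exists_divisor hp.out.ne_zero hf.ne_zero hfk
  obtain ⟨D₀, hD₀⟩ := exists_divisor hp.out.ne_zero hf₀.ne_zero hf₀k
  have T₀ := triv_of H hf₀F hf₀ a1 a2 hD₀ hv
  have hDσ := div_rel hf.ne_zero hf₀.ne_zero hg hκ hrel hD hD₀
  have hp1 := hp.out.one_lt
  obtain ⟨c₀, T⟩ := R.exists_thick (Nat.mul_pos hp.out.pos (by omega))
  refine ⟨exists_const_of_ge fun v => WildAut.regular H S T hp.out.ne_zero hf hfF hD hgh hh hDσ T₀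
    v, fun a h1 h2 v => ?_⟩
  exact PRG.dvd_all S T (thick12 H R₁) (fun j k' h => thick_ok hOk ι H R₁ j h) hf hfF hD hgh hh hDσ T₀ h1 h2 H v

include H in
/-- **The nonsplit case.** -/
theorem nonsplit_case [hN : Nonempty (Nd (ng Ω hco hk hM b) hk (fd k p M).nodes)]
    (ι : Ω →+* ℂ) (hA : A.LiesOverPrime p) (hOk : Ok p M) (hPp : ∀ ℓ, P ℓ → ℓ ≠ p)
    {E₁ : IntermediateField (K0 A) Ω} [FiniteDimensional (K0 A) E₁] {ϖ₁ : A}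
    {Q₁ : RatStr (ng Ω hco hk hM b)} (R₁ : RS E₁ 1 ϖ₁ Q₁) (R₀ : RS E₀ e₀ ϖ₀ Q₀)
    (R : RS E (p * (p - 1)) ϖ Q) (hE₀E : E₀ ≤ E) {v : A} (hv : Q₀.ϖ = Q.ϖ ^ 2 * v)
    {σ : Ω ≃ₐ[K0 A] Ω} (hσE : ∀ x ∈ E, σ x ∈ E) {z θ}
    (S : WildAut Q (galAut (p * M) (σ : Ω ≃+* Ω)) z θ)
    {τ : Ω ≃ₐ[K0 A] Ω} {n : ℤ} (hn : ¬ (p : ℤ) ∣ n - 1)
    {ξ ξ₀ : Kum.XL (p * M) p} (hξ₀ : ξ₀ ≠ 0)
    (hσξ : Kum.rhoF ι p (AlgEquiv.restrictScalars ℚ σ) ξ = ξ + ξ₀)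
    (hτ : Kum.rhoF ι p (AlgEquiv.restrictScalars ℚ τ) ξ₀ = n • ξ₀)
    (hfix : ∀ σ : Ω ≃ₐ[ℚ] Ω, (∀ x ∈ E, σ x = x) → Kum.rhoF ι p σ ξ = ξ)
    (hfix₀ : ∀ σ : Ω ≃ₐ[ℚ] Ω, (∀ x ∈ E₀, σ x = x) → Kum.rhoF ι p σ ξ₀ = ξ₀)
    (hE : EigCls c P ξ) (hE₀ : EigCls c P ξ₀)
    {ℓ : ℕ} [hl : Fact ℓ.Prime] (hℓN : ¬ ℓ ∣ p * M) (hPℓ : P ℓ)
    (hne : ¬ (p : ℤ) ∣ c ℓ - ℓ - 1) : CONC p M c P := by
  by_contra hcon
  have hℓp := hPp ℓ hPℓ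
  obtain ⟨f₀, hf₀F₀, hf₀, a1, a2, hcl₀⟩ := exists_f0 H R₀ hn hτ hfix₀ hE₀ hℓN hPℓ hℓp hne
  have hf₀F : f₀ ∈ Q.fld := by
    rw [R.mem_fld, mem_EL]
    have := R₀.mem_fld.1 hf₀F₀
    rw [mem_EL] at this
    exact fun i => hE₀E (this i)
  obtain ⟨f, hfF, hf, hcl⟩ := R.exists_rep ι hfix hE hℓN hPℓ hℓp hne
  obtain ⟨g, hgF, hg, g1, g2, κ, hκ, hrel⟩ :=
    exists_g R hσE hσξ hfF hf hcl hf₀F hf₀ a1 a2 hcl₀
  have hgi := hg.inv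
  obtain ⟨h, hh, hgh⟩ := Cg.of_red (Q := Q) hgi.mem (one_mem _) (inv_mem hgF) (one_mem _)
    (by rw [hg.r1_inv, g1, inv_one, r1_one]) (by rw [hg.r2_inv, g2, inv_one, r2_one])
  rw [pow_one] at hgh
  -- the other side
  have hrel' : act (p * M) (σ : Ω ≃+* Ω) (SemiSt.w Ω hco f) =
      SemiSt.w Ω hco f * SemiSt.w Ω hco f₀ *
        (algebraMap Ω (FF Ω (p * M)) κ * SemiSt.w Ω hco g ^ p) := by
    rw [act_w, hrel, map_mul, map_mul, map_mul, map_pow, AlgEquiv.commutes]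
  have hgh' : (SemiSt.w Ω hco g)⁻¹ = 1 + algebraMap A (FF Ω (p * M)) Q.ϖ * SemiSt.w Ω hco h := by
    rw [← map_inv₀, hgh, algA, w_one_add]
  obtain ⟨⟨c₁, hc₁⟩, d1⟩ := PRG.side H ι hOk R₁ R hv S hfF hf hcl.kd hf₀F₀ hf₀ a1 a2 hcl₀.kd hg.ne_zero
    hκ hrel hh hgh
  obtain ⟨⟨c₂, hc₂⟩, d2⟩ := PRG.side H ι hOk R₁ R hv S (R.w_fld hfF) (uw_w hf)
    (dvd_ord_w hf.ne_zero hcl.kd) (R₀.w_fld hf₀F₀) (uw_w hf₀) (by rw [r1_w hf₀.mem, a2])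
    (by rw [r2_w hf₀.mem, a1]) (dvd_ord_w hf₀.ne_zero hcl₀.kd) (uw_w hg).ne_zero
    hκ hrel' (w_mem hh) hgh'
  have hc₂' : r2 (ng Ω hco hk hM b) h = algebraMap k (FF k M) c₂ := by rw [← r1_w hh]; exact hc₂
  have hEf := hE.eig hcl
  obtain rfl : c₁ = c₂ := const_eq R₀ R hv S hfF hf hEf hf₀F₀ hf₀ a1 a2 (hE₀.eig hcl₀)
    hg.ne_zero hκ hrel ⟨h, hh, hgh, hc₁, hc₂'⟩ hℓN hPℓ hℓp hne
  have h1 : ∃ y, r1 (ng Ω hco hk hM b) f = y ^ p :=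
    (PRG.comp1 ι hOk hPp hf hEf (d1 c₁ hc₁ hc₂')).resolve_right hcon
  have h2 : ∃ y, r2 (ng Ω hco hk hM b) f = y ^ p := by
    refine (PRG.comp2 ι hOk hPp hf hEf fun v => ?_).resolve_right hcon
    rw [← r1_w hf.mem]
    exact d2 c₁ hc₂ (by rw [r2_w hh]; exact hc₁) v
  obtain ⟨f', hf'F, hf', e1, e2, hcl'⟩ := normalize H hfF hf hcl h1 h2
  have h3 := PRG.final_contra H hA hOk hPp R S hf'F hf' e1 e2 hcl' hE hcon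
  rw [hσξ] at h3
  exact hξ₀ (add_eq_left.1 h3)

end One

section Two

variable {A : ValuationSubring (AlgebraicClosure ℚ)} {p : ℕ} [hp : Fact p.Prime]
  {M : ℕ} [NeZero M] {k : Type*} [Field k] [Algebra A k] [CharP k p] [IsAlgClosed k]
  {hk : Function.Surjective (algebraMap A k)} {hco : p.Coprime M} {hM : (M : k) ≠ 0} {b : A}
  [Algebra A (FF Ω (p * M))] [IsScalarTower A Ω (FF Ω (p * M))]
  [Algebra A (FF k M)] [IsScalarTower A k (FF k M)]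
  [FunField k (FF k M)] [FunField Ω (FF Ω M)] [FunField Ω (FF Ω (p * M))]
  {c : ℕ → ℤ} {P : ℕ → Prop}
  {T : Type*} [AddCommGroup T] [DistribMulAction (Ω ≃ₐ[ℚ] Ω) T]
  (H : NodMod (ng Ω hco hk hM b) hk (ng_hspan hco hk hM b) (fd k p M).nodes)

include H in
theorem concl_split [hN : Nonempty (Nd (ng Ω hco hk hM b) hk (fd k p M).nodes)]
    (ι : Ω →+* ℂ) (hA : A.LiesOverPrime p) (hOk : Ok p M) (hPp : ∀ ℓ, P ℓ → ℓ ≠ p)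
    (hb : (b : Ω) ∈ K0 A) (hT : ∀ x : T, p • x = 0) (κ : T →+ Kum.XL (p * M) p)
    (hκ : Function.Injective κ)
    (hκσ : ∀ (σ : Ω ≃ₐ[ℚ] Ω) (Q : T), κ (σ • Q) = Kum.rhoF ι p σ (κ Q))
    (hκE : ∀ Q : T, EigCls c P (κ Q)) {Q0 : T}
    (hI : ∀ τ : Ω ≃ₐ[K0 A] Ω, (∃ n : ℤ, rs τ • Q0 = n • Q0) ∧
      ∀ Q : T, ∃ n : ℤ, rs τ • Q - Q = n • Q0)
    (hfix : ∀ τ : Ω ≃ₐ[K0 A] Ω, rs τ • Q0 = Q0 → ∀ Q : T, rs τ • Q = Q)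
    {τ₀ : Ω ≃ₐ[K0 A] Ω} (h0 : rs τ₀ • Q0 ≠ Q0) {Q : T} (hQ : ∀ n : ℤ, Q ≠ n • Q0)
    {ℓ : ℕ} [hl : Fact ℓ.Prime] (hℓN : ¬ ℓ ∣ p * M) (hPℓ : P ℓ)
    (hne : ¬ (p : ℤ) ∣ c ℓ - ℓ - 1) : CONC p M c P := by
  obtain ⟨Q1, hQ1, hQ1f⟩ := rep_fix hT hI hfix h0 hQ
  obtain ⟨ϖ, Q', R⟩ := exists_RS_bot hk hco hM hA hb
  refine PRG.split_case H ι hA hOk hPp R (ξ := κ Q1) (fun h => hQ1 (hκ (by rw [h, map_zero])))
    (fun σ hσ => ?_) (hκE Q1) hℓN hPℓ hne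
  obtain ⟨τ, -, rfl⟩ := exists_rs hσ
  rw [← hκσ, hQ1f]

include H in
theorem concl_nonsplit [hN : Nonempty (Nd (ng Ω hco hk hM b) hk (fd k p M).nodes)]
    (ι : Ω →+* ℂ) (hA : A.LiesOverPrime p) (hOk : Ok p M) (hPp : ∀ ℓ, P ℓ → ℓ ≠ p)
    (hb : (b : Ω) ∈ K0 A) (hT : ∀ x : T, p • x = 0) (κ : T →+ Kum.XL (p * M) p)
    (hκ : Function.Injective κ)
    (hκσ : ∀ (σ : Ω ≃ₐ[ℚ] Ω) (Q : T), κ (σ • Q) = Kum.rhoF ι p σ (κ Q))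
    (hκE : ∀ Q : T, EigCls c P (κ Q)) {Q0 : T}
    (hI : ∀ τ : Ω ≃ₐ[K0 A] Ω, (∃ n : ℤ, rs τ • Q0 = n • Q0) ∧
      ∀ Q : T, ∃ n : ℤ, rs τ • Q - Q = n • Q0)
    {E₀ L : IntermediateField (K0 A) Ω} [FiniteDimensional (K0 A) E₀]
    [FiniteDimensional (K0 A) L] (hE₀L : E₀ ≤ L)
    (hE₀ : ∀ σ : Ω ≃ₐ[K0 A] Ω, σ ∈ E₀.fixingSubgroup ↔ rs σ • Q0 = Q0)
    (hL : ∀ σ : Ω ≃ₐ[K0 A] Ω, σ ∈ L.fixingSubgroup ↔ ∀ Q : T, rs σ • Q = Q)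
    (hfE₀ : finrank (K0 A) E₀ = p - 1) (hfL : finrank (K0 A) L = p * (p - 1))
    {ϖ : Ω} (hϖL : ϖ ∈ L) (hϖ0 : ϖ ≠ 0) (hϖw : (rval A p hA).w ϖ = 1 / (p * (p - 1)))
    (hϖσ : ∀ σ ∈ E₀.fixingSubgroup, σ ∉ L.fixingSubgroup →
      σ ϖ - ϖ ≠ 0 ∧ (rval A p hA).w (σ ϖ - ϖ) = 2 / (p * (p - 1)))
    {τ₀ : Ω ≃ₐ[K0 A] Ω} (h0 : rs τ₀ • Q0 ≠ Q0)
    {ℓ : ℕ} [hl : Fact ℓ.Prime] (hℓN : ¬ ℓ ∣ p * M) (hPℓ : P ℓ)
    (hne : ¬ (p : ℤ) ∣ c ℓ - ℓ - 1) : CONC p M c P := by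
  have hp1 := hp.out.one_lt
  -- the wild automorphism
  obtain ⟨σ, hσE₀, hσL⟩ : ∃ σ : Ω ≃ₐ[K0 A] Ω, σ ∈ E₀.fixingSubgroup ∧ σ ∉ L.fixingSubgroup := by
    by_contra hcon
    push Not at hcon
    have h1 : L = E₀ := le_antisymm (le_of_fixing hcon) hE₀L
    rw [h1, hfE₀] at hfL
    have hp3 := hOk.three_le
    obtain ⟨d, rfl⟩ : ∃ d, p = d + 3 := ⟨p - 3, by omega⟩
    have h2 : d + 3 - 1 = d + 2 := by omega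
    rw [h2] at hfL
    nlinarith
  obtain ⟨Q1, hQ1⟩ : ∃ Q1 : T, rs σ • Q1 ≠ Q1 := by
    by_contra hcon
    push Not at hcon
    exact hσL ((hL σ).2 hcon)
  obtain ⟨m, hm⟩ := (hI σ).2 Q1
  have hm0 : m • Q0 ≠ 0 := fun h => hQ1 (sub_eq_zero.1 (hm.trans h))
  -- the uniformizers
  have hcast : ((finrank (K0 A) L : ℕ) : ℚ) = p * (p - 1) := by
    rw [hfL]; push_cast [Nat.cast_sub hp1.le]; ring
  have hpos : (0 : ℚ) < p * (p - 1) := by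
    have : (1 : ℚ) < p := by exact_mod_cast hp1
    nlinarith
  obtain ⟨hϖA, U⟩ := unif_of_w hA hϖL hϖ0
    (by rw [hcast, hϖw, mul_one_div, div_self hpos.ne'])
  rw [hfL] at U
  obtain ⟨Q', R⟩ := exists_RS hk hco hM U hA hb
  obtain ⟨ϖ₀, U₀⟩ := exists_Unif hA E₀
  rw [hfE₀] at U₀
  obtain ⟨Q₀, R₀⟩ := exists_RS hk hco hM U₀ hA hb
  obtain ⟨ϖ₁, Q₁, R₁⟩ := exists_RS_bot hk hco hM hA hb
  -- the relation between the uniformizers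
  obtain ⟨v, hv⟩ : ∃ v : A, Q₀.ϖ = Q'.ϖ ^ 2 * v := by
    rw [R₀.hϖ, R.hϖ]
    exact exists_sq hE₀L U₀ R (by omega) hp1
  -- the automorphism
  obtain ⟨h1, h2⟩ := hϖσ σ hσE₀ hσL
  obtain ⟨c', W, hc'⟩ := waut_of hA hϖL hϖ0 (by rw [hcast, hϖw]) hϖA h1 (by rw [hcast, h2])
  obtain ⟨n, hn⟩ := R.ψ
  obtain ⟨z, S⟩ := W.wild hk U hco hM hA (b := b) (σ.commutes ⟨b, hb⟩) Q' R.S R.hϖ hn
    (by rw [R.hψ', hn]) (fun h => hc' ((red_eq_zero_iff hk).1 h))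
  -- the stability of `L`
  have hσE : ∀ x ∈ L, σ x ∈ L := by
    intro x hx
    refine mem_of_fixing fun τ hτ => ?_
    have h3 : σ⁻¹ * τ * σ ∈ L.fixingSubgroup := by
      rw [hL] at hτ ⊢
      intro Q
      rw [rs_mul, rs_mul, mul_smul, mul_smul, hτ, ← mul_smul, ← rs_mul, inv_mul_cancel, rs_one,
        one_smul]
    have h4 := (IntermediateField.mem_fixingSubgroup_iff _ _).1 h3 x hx
    have h5 := congrArg σ h4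
    rw [AlgEquiv.mul_apply, AlgEquiv.mul_apply, ← AlgEquiv.mul_apply σ σ⁻¹, mul_inv_cancel] at h5
    exact h5
  obtain ⟨⟨n', hn'⟩, -⟩ := hI τ₀
  have hn'1 := (rep_coeff hT (by rw [← hn']; exact h0)).1
  have hσ0 : rs σ • Q0 = Q0 := (hE₀ σ).1 hσE₀
  refine PRG.nonsplit_case H ι hA hOk hPp R₁ R₀ R hE₀L hv hσE S (τ := τ₀) hn'1
    (ξ := κ Q1) (ξ₀ := κ (m • Q0)) (fun h => hm0 (hκ (by rw [h, map_zero]))) ?_ ?_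
    (fun σ' hσ' => ?_) (fun σ' hσ' => ?_) (hκE _) (hκE _) hℓN hPℓ hne
  · rw [← map_add, ← hm]
    have := (hκσ (rs σ) Q1).symm
    rw [add_sub_cancel]
    exact this
  · have := (hκσ (rs τ₀) (m • Q0)).symm
    rw [rep_zsmul, hn', smul_comm, map_zsmul κ n' (m • Q0)] at this
    exact this
  · obtain ⟨τ, hτ, rfl⟩ := exists_rs hσ'
    rw [← hκσ, (hL τ).1 hτ]
  · obtain ⟨τ, hτ, rfl⟩ := exists_rs hσ'
    rw [← hκσ, rep_zsmul, (hE₀ τ).1 hτ]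

include H in
theorem concl_all [hN : Nonempty (Nd (ng Ω hco hk hM b) hk (fd k p M).nodes)]
    (ι : Ω →+* ℂ) (hA : A.LiesOverPrime p) (hOk : Ok p M) (hPp : ∀ ℓ, P ℓ → ℓ ≠ p)
    (hb : (b : Ω) ∈ K0 A) (hT : ∀ x : T, p • x = 0) (κ : T →+ Kum.XL (p * M) p)
    (hκ : Function.Injective κ)
    (hκσ : ∀ (σ : Ω ≃ₐ[ℚ] Ω) (Q : T), κ (σ • Q) = Kum.rhoF ι p σ (κ Q))
    (hκE : ∀ Q : T, EigCls c P (κ Q)) {Q0 : T}
    (hI : ∀ τ : Ω ≃ₐ[K0 A] Ω, (∃ n : ℤ, rs τ • Q0 = n • Q0) ∧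
      ∀ Q : T, ∃ n : ℤ, rs τ • Q - Q = n • Q0)
    {Q : T} (hQ : ∀ n : ℤ, Q ≠ n • Q0)
    {E₀ L : IntermediateField (K0 A) Ω} [FiniteDimensional (K0 A) E₀]
    [FiniteDimensional (K0 A) L] (hE₀L : E₀ ≤ L)
    (hE₀ : ∀ σ : Ω ≃ₐ[K0 A] Ω, σ ∈ E₀.fixingSubgroup ↔ rs σ • Q0 = Q0)
    (hL : ∀ σ : Ω ≃ₐ[K0 A] Ω, σ ∈ L.fixingSubgroup ↔ ∀ Q : T, rs σ • Q = Q)
    (hfE₀ : finrank (K0 A) E₀ = p - 1)
    (hcase : L = E₀ ∨ (finrank (K0 A) L = p * (p - 1) ∧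
      ∃ ϖ ∈ L, ϖ ≠ 0 ∧ (rval A p hA).w ϖ = 1 / (p * (p - 1)) ∧
        ∀ σ ∈ E₀.fixingSubgroup, σ ∉ L.fixingSubgroup →
          σ ϖ - ϖ ≠ 0 ∧ (rval A p hA).w (σ ϖ - ϖ) = 2 / (p * (p - 1))))
    {ℓ : ℕ} [hl : Fact ℓ.Prime] (hℓN : ¬ ℓ ∣ p * M) (hPℓ : P ℓ)
    (hne : ¬ (p : ℤ) ∣ c ℓ - ℓ - 1) : CONC p M c P := by
  obtain ⟨τ₀, h0⟩ : ∃ τ₀ : Ω ≃ₐ[K0 A] Ω, rs τ₀ • Q0 ≠ Q0 := by
    by_contra hcon
    push Not at hcon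
    have h1 : E₀ = ⊥ := by
      refine le_bot_iff.1 (le_of_fixing fun σ _ => (hE₀ σ).2 (hcon σ))
    rw [h1, IntermediateField.finrank_bot] at hfE₀
    have := hOk.three_le
    omega
  rcases hcase with h | ⟨hfL, ϖ, hϖL, hϖ0, hϖw, hϖσ⟩
  · subst h
    exact PRG.concl_split H ι hA hOk hPp hb hT κ hκ hκσ hκE hI
      (fun τ hτ => (hL τ).1 ((hE₀ τ).2 hτ)) h0 hQ hℓN hPℓ hne
  · exact PRG.concl_nonsplit H ι hA hOk hPp hb hT κ hκ hκσ hκE hI hE₀L hE₀ hL hfE₀ hfL hϖL hϖ0 hϖw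
      hϖσ h0 hℓN hPℓ hne

end Two

end Fermat.Agent.PRG
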