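import Fermat.Agent.PRG.Thick
import Fermat.Agent.PRem.Asm7

/-!
# Component lemmas for admissible `(p, M)`
-/

set_option autoImplicit false
set_option linter.unusedSectionVars false
set_option linter.style.haveILetI false

noncomputable section

namespace Fermat.Agent.PRG

open ModularCurve IntermediateField AlgebraicCurve ModularFormClass
open Fermat.Agent.ModPoly Fermat.Agent.Curve Fermat.Agent.RR Fermat.Agent.HeckeProd
open Fermat.Agent.Spec Fermat.Agent.PRem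

section Main

attribute [local instance] algFF

variable {A K k : Type*} [CommRing A] [IsDomain A] [ValuationRing A]
  [Field K] [IsAlgClosed K] [Algebra A K] [IsFractionRing A K] [Field k] [IsAlgClosed k]
  [Algebra A k] {M : ℕ} [NeZero M]

include A K in
/-- **Theorem C**, admissible pairs -/
theorem thmC_ok [CharZero K] [Algebra ℚ K] (ι : K →+* ℂ)
    (hk : Function.Surjective (algebraMap A k))
    {p : ℕ} [Fact p.Prime] [CharP k p] (hOk : Ok p M) (hM : (M : k) ≠ 0)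
    {h : LaurentSeries k} (h0 : h ≠ 0) (hmem : h / theta (jqModC k) ∈ FF k M)
    (hloc : ∀ v : Place k (FF k M), ∃ u b : FF k M, Ge v 0 u ∧ b ≠ 0 ∧ v.ord b = 0 ∧
      h * (b : LaurentSeries k) = theta (u : LaurentSeries k))
    (c : ℕ → ℤ) (P : ℕ → Prop)
    (hecke : ∀ ℓ : ℕ, ℓ.Prime → ¬ ℓ ∣ M → P ℓ → ∀ n : ℤ,
      h.coeff (ℓ * n) + ℓ * (if (ℓ : ℤ) ∣ n then h.coeff (n / ℓ) else 0) = (c ℓ : k) * h.coeff n) :
    ∃ g : CuspForm (CongruenceSubgroup.Gamma0 M) 2, g.IsNormalizedEigenform ∧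
      ∃ m : Ideal (integralClosure ℤ ℂ), m.IsMaximal ∧ (p : integralClosure ℤ ℂ) ∈ m ∧
        ∀ ℓ : ℕ, ℓ.Prime → ¬ ℓ ∣ M → P ℓ → ∃ α : integralClosure ℤ ℂ, (α : ℂ) = qCoeff g ℓ ∧
          α - (c ℓ : integralClosure ℤ ℂ) ∈ m := by
  rcases hOk with h5 | ⟨-, h2, h3⟩
  · exact ThmC.main (A := A) (K := K) ι hk h5 hM h0 hmem hloc c P hecke
  · exact ThmC.mainZ (A := A) (K := K) ι hk hM h2 h3 h0 hmem hloc c P hecke

include A K in
/-- **The component lemma, multiplicative case.** -/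
theorem comp_mul [CharZero K] [Algebra ℚ K] (ι : K →+* ℂ)
    (hk : Function.Surjective (algebraMap A k))
    {p : ℕ} [Fact p.Prime] [CharP k p] (hOk : Ok p M) (hM : (M : k) ≠ 0)
    (c : ℕ → ℤ) (P : ℕ → Prop) {f : FF k M} (hf : f ≠ 0)
    (hord : ∀ v : Place k (FF k M), (p : ℤ) ∣ v.ord f)
    (hecke : ∀ (ℓ : ℕ) [Fact ℓ.Prime], ¬ ℓ ∣ M → P ℓ → ∃ (ζ : kˣ) (hζ : IsPrimitiveRoot ζ ℓ)
      (z : LaurentSeries k), z ≠ 0 ∧
        TT hζ (f : LaurentSeries k) = (f : LaurentSeries k) ^ (c ℓ) * z ^ p) :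
    (∃ y : FF k M, f = y ^ p) ∨
    ∃ g : CuspForm (CongruenceSubgroup.Gamma0 M) 2, g.IsNormalizedEigenform ∧
      ∃ m : Ideal (integralClosure ℤ ℂ), m.IsMaximal ∧ (p : integralClosure ℤ ℂ) ∈ m ∧
        ∀ ℓ : ℕ, ℓ.Prime → ¬ ℓ ∣ M → P ℓ → ∃ α : integralClosure ℤ ℂ, (α : ℂ) = qCoeff g ℓ ∧
          α - (c ℓ : integralClosure ℤ ℂ) ∈ m := by
  haveI : CharP (LaurentSeries k) p :=
    charP_of_injective_algebraMap (algebraMap k (LaurentSeries k)).injective p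
  have hf' : (f : LaurentSeries k) ≠ 0 := by
    rwa [Ne, ZeroMemClass.coe_eq_zero]
  by_cases h0 : theta (f : LaurentSeries k) = 0
  · exact Or.inl (exists_pow_of_theta hM h0)
  right
  have h1 : dl (f : LaurentSeries k) ≠ 0 := div_ne_zero h0 hf'
  refine thmC_ok (A := A) (K := K) ι hk hOk hM h1 ?_ ?_ c P ?_
  · obtain ⟨g, -, hg⟩ := ThmC.exists_dj hM f
    have h2 : dl (f : LaurentSeries k) / theta (jqModC k) = ((g / f : FF k M) :
        LaurentSeries k) := by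
      rw [dl, hg]
      have := ThmC.theta_jq_ne (k := k)
      push_cast
      field_simp
    rw [h2]
    exact (g / f : FF k M).2
  · intro v
    obtain ⟨π, hπ⟩ := exists_uniformizer v
    obtain ⟨n, hn⟩ := hord v
    have hπ0 : (π : FF k M) ≠ 0 := coe_ne_zero_of_irreducible hπ
    have hπ1 : v.ord (π : FF k M) = 1 := v.ord_coe_irreducible hπ
    have ht0 : (π : FF k M) ^ n ≠ 0 := zpow_ne_zero _ hπ0
    have ht1 : ((π : FF k M) ^ n) ^ p ≠ 0 := pow_ne_zero _ ht0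
    have hb0 : f / ((π : FF k M) ^ n) ^ p ≠ 0 := div_ne_zero hf ht1
    have hb1 : v.ord (f / ((π : FF k M) ^ n) ^ p) = 0 := by
      rw [ord_div v hf ht1, ord_pow, v.ord_zpow, hπ1, hn]
      ring
    refine ⟨f / ((π : FF k M) ^ n) ^ p, f / ((π : FF k M) ^ n) ^ p, ?_, hb0, hb1, ?_⟩
    · exact Or.inr (hb1.symm.le)
    · have hb2 : ((f / ((π : FF k M) ^ n) ^ p : FF k M) : LaurentSeries k) ≠ 0 := by
        rwa [Ne, ZeroMemClass.coe_eq_zero]
      have ht2 : (((π : FF k M) ^ n : FF k M) : LaurentSeries k) ≠ 0 := by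
        rwa [Ne, ZeroMemClass.coe_eq_zero]
      have h2 : dl (f : LaurentSeries k) =
          dl ((f / ((π : FF k M) ^ n) ^ p : FF k M) : LaurentSeries k) := by
        have h3 : (f : LaurentSeries k) = ((f / ((π : FF k M) ^ n) ^ p : FF k M) :
            LaurentSeries k) * (((π : FF k M) ^ n : FF k M) : LaurentSeries k) ^ p := by
          rw [← SubmonoidClass.coe_pow, ← MulMemClass.coe_mul, div_mul_cancel₀ _ ht1]
        conv_lhs => rw [h3]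
        rw [dl_mul hb2 (pow_ne_zero _ ht2), dl_pow ht2, nsmul_eq_mul, CharP.cast_eq_zero, zero_mul,
          add_zero]
      rw [h2, dl, div_mul_cancel₀ _ hb2]
  · intro ℓ hℓ hℓM hP n
    haveI : Fact ℓ.Prime := ⟨hℓ⟩
    obtain ⟨ζ, hζ, z, hz, hT⟩ := hecke ℓ hℓM hP
    rw [← dl_TT hζ hf', hT, dl_mul (zpow_ne_zero _ hf') (pow_ne_zero _ hz), dl_pow hz, dl_zpow hf',
      nsmul_eq_mul, CharP.cast_eq_zero, zero_mul, add_zero, HahnSeries.coeff_smul, zsmul_eq_mul]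

include A K in
/-- **The component lemma, additive case.** -/
theorem comp_add [CharZero K] [Algebra ℚ K] (ι : K →+* ℂ)
    (hk : Function.Surjective (algebraMap A k))
    {p : ℕ} [Fact p.Prime] [CharP k p] (hOk : Ok p M) (hM : (M : k) ≠ 0)
    (c : ℕ → ℤ) (P : ℕ → Prop) {H : FF k M}
    (hreg : ∀ v : Place k (FF k M), ∃ u t : FF k M, Ge v 0 u ∧ H = u + t ^ p)
    (hecke : ∀ ℓ : ℕ, ℓ.Prime → ¬ ℓ ∣ M → P ℓ → ∃ Z : LaurentSeries k, ∀ n : ℤ,
      ℓ * (H : LaurentSeries k).coeff (ℓ * n) +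
        (if (ℓ : ℤ) ∣ n then (H : LaurentSeries k).coeff (n / ℓ) else 0) =
      c ℓ * (H : LaurentSeries k).coeff n + (Z ^ p).coeff n) :
    (∃ y : FF k M, H = y ^ p) ∨
    ∃ g : CuspForm (CongruenceSubgroup.Gamma0 M) 2, g.IsNormalizedEigenform ∧
      ∃ m : Ideal (integralClosure ℤ ℂ), m.IsMaximal ∧ (p : integralClosure ℤ ℂ) ∈ m ∧
        ∀ ℓ : ℕ, ℓ.Prime → ¬ ℓ ∣ M → P ℓ → ∃ α : integralClosure ℤ ℂ, (α : ℂ) = qCoeff g ℓ ∧
          α - (c ℓ : integralClosure ℤ ℂ) ∈ m := by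
  by_cases h0 : theta (H : LaurentSeries k) = 0
  · exact Or.inl (exists_pow_of_theta hM h0)
  right
  refine thmC_ok (A := A) (K := K) ι hk hOk hM h0 ?_ ?_ c P ?_
  · obtain ⟨g, -, hg⟩ := ThmC.exists_dj hM H
    have h2 : theta (H : LaurentSeries k) / theta (jqModC k) = (g : LaurentSeries k) := by
      rw [hg, mul_div_cancel_right₀ _ ThmC.theta_jq_ne]
    rw [h2]
    exact g.2
  · intro v
    obtain ⟨u, t, hu, ht⟩ := hreg v
    refine ⟨u, 1, hu, one_ne_zero, ?_, ?_⟩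
    · have := ord_algebraMap v (1 : k)
      rwa [map_one] at this
    · rw [ht]
      push_cast
      rw [mul_one, map_add, theta_pow_char, add_zero]
  · intro ℓ hℓ hℓM hP n
    obtain ⟨Z, hZ⟩ := hecke ℓ hℓ hℓM hP
    have h1 := hZ n
    have h2 : (n : k) * (Z ^ p).coeff n = 0 := by
      have := congrArg (fun G : LaurentSeries k => G.coeff n) (theta_pow_char (p := p) Z)
      rwa [theta_coeff] at this
    have h0 : (ℓ : ℤ) ≠ 0 := by exact_mod_cast hℓ.ne_zero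
    rw [theta_coeff (H : LaurentSeries k) n, theta_coeff (H : LaurentSeries k) (ℓ * n)]
    have h3 : (if (ℓ : ℤ) ∣ n then (theta (H : LaurentSeries k)).coeff (n / ℓ) else 0) * (ℓ : k) =
        n * (if (ℓ : ℤ) ∣ n then (H : LaurentSeries k).coeff (n / ℓ) else 0) := by
      split_ifs with h
      · obtain ⟨m, rfl⟩ := h
        rw [Int.mul_ediv_cancel_left _ h0, theta_coeff]
        push_cast
        ring
      · simp
    push_cast
    linear_combination (n : k) * h1 + h3 + h2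

end Main

end Fermat.Agent.PRG

namespace Fermat.Agent.PRG

open ModularCurve Polynomial IntermediateField Fermat.Agent.ModPoly Fermat.Agent.Red
  Fermat.Agent.RedMod Fermat.Agent.Cusp Fermat.Agent.SemiSt AlgebraicCurve Fermat.Agent.Curve
  Fermat.Agent.RR Fermat.Agent.Nod Fermat.Agent.Flat Fermat.Agent.FlatRam Fermat.Agent.Places
  Fermat.Agent.PRem

local notation "Ω" => AlgebraicClosure ℚ

variable {A : ValuationSubring (AlgebraicClosure ℚ)} {p : ℕ} [hp : Fact p.Prime]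
  {M : ℕ} [NeZero M] {k : Type*} [Field k] [Algebra A k] [CharP k p] [IsAlgClosed k]
  {hk : Function.Surjective (algebraMap A k)} {hco : p.Coprime M} {hM : (M : k) ≠ 0} {b : A}
  [Algebra A (FF Ω (p * M))] [IsScalarTower A Ω (FF Ω (p * M))]
  [Algebra A (FF k M)] [IsScalarTower A k (FF k M)]
  [FunField k (FF k M)] [FunField Ω (FF Ω M)] [FunField Ω (FF Ω (p * M))]
  {E : IntermediateField (K0 A) Ω} [FiniteDimensional (K0 A) E]
  {e : ℕ} {ϖ : A} {Q : RatStr (ng Ω hco hk hM b)} {c : ℕ → ℤ} {P : ℕ → Prop}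

/-- the component lemma at the first component -/
theorem comp1 (ι : Ω →+* ℂ) (hOk : Ok p M) (hPp : ∀ ℓ, P ℓ → ℓ ≠ p) {f : FF Ω (p * M)}
    (hf : UW (ng Ω hco hk hM b) f) (hE : Eig c P f)
    (hord : ∀ v : Place k (FF k M), (p : ℤ) ∣ v.ord (r1 (ng Ω hco hk hM b) f)) :
    (∃ y, r1 (ng Ω hco hk hM b) f = y ^ p) ∨ CONC p M c P := by
  refine PRG.comp_mul (A := A) (K := Ω) ι hk hOk hM c P hf.r1_ne hord fun ℓ hl hℓM hPℓ => ?_
  have hℓp := hPp ℓ hPℓ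
  have hℓN := not_dvd_of hℓp hℓM
  obtain ⟨z, hz, h⟩ := hE ℓ hℓN hPℓ
  have hzU := PRem.Eig.uw hf hℓN hℓp h
  obtain ⟨ζ, Z⟩ := exists_Zt (A := A) (K := Ω) (k := k) hl.out (natCast_ne_of (p := p) hℓp)
  refine ⟨_, Z.hk, (r1 (ng Ω hco hk hM b) z : FF k M), fun h0 => hzU.r1_ne (Subtype.ext h0), ?_⟩
  rw [← r1_TTf Z (coprime_of' hℓN) hf.mem, h, r1_mul (hf.zpow _).mem (hzU.pow p).mem,
    r1_pow hzU.mem, hf.r1_zpow]
  rfl

/-- the component lemma at the second component -/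
theorem comp2 (ι : Ω →+* ℂ) (hOk : Ok p M) (hPp : ∀ ℓ, P ℓ → ℓ ≠ p) {f : FF Ω (p * M)}
    (hf : UW (ng Ω hco hk hM b) f) (hE : Eig c P f)
    (hord : ∀ v : Place k (FF k M), (p : ℤ) ∣ v.ord (r2 (ng Ω hco hk hM b) f)) :
    (∃ y, r2 (ng Ω hco hk hM b) f = y ^ p) ∨ CONC p M c P := by
  have h1 := PRG.comp1 ι hOk hPp (uw_w hf) (hE.w hco) (by rw [r1_w hf.mem]; exact hord)
  rwa [r1_w hf.mem] at h1

/-- **the component lemma for leading terms**, first component -/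
theorem compA1 (ι : Ω →+* ℂ) (hOk : Ok p M) (hPp : ∀ ℓ, P ℓ → ℓ ≠ p) {u : A}
    (hpe : (p : A) = Q.ϖ ^ (p * (p - 1)) * u) {n : ℕ} (hn : 1 ≤ n) (hnp : n < p)
    {f : FF Ω (p * M)} (hE : Eig c P f) {H : FF Ω (p * M)} (hH : H ∈ (ng Ω hco hk hM b).W)
    (hf : f = 1 + algebraMap A (FF Ω (p * M)) Q.ϖ ^ (p * n) * H)
    (hreg : ∀ v : Place k (FF k M), ∃ y, Ge v 0 (r1 (ng Ω hco hk hM b) H - y ^ p)) :
    (∃ y, r1 (ng Ω hco hk hM b) H = y ^ p) ∨ CONC p M c P := by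
  refine PRG.comp_add (A := A) (K := Ω) ι hk hOk hM c P (fun v => ?_) fun ℓ hℓ' hℓM hPℓ => ?_
  · obtain ⟨y, hy⟩ := hreg v
    exact ⟨_, y, hy, by ring⟩
  haveI hl : Fact ℓ.Prime := ⟨hℓ'⟩
  have hℓp := hPp ℓ hPℓ
  have hℓN := not_dvd_of hℓp hℓM
  obtain ⟨z, hz, h⟩ := hE ℓ hℓN hPℓ
  obtain ⟨ζ, Z⟩ := exists_Zt (A := A) (K := Ω) (k := k) hl.out (natCast_ne_of (p := p) hℓp)
  have hpn : p * n ≠ 0 := mul_ne_zero hp.out.ne_zero (by omega)
  have hϖk : algebraMap A k (Q.ϖ ^ (p * n)) = 0 := by rw [map_pow, Q.ϖk, zero_pow hpn]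
  have hsm : Sm (ng Ω hco hk hM b) (algebraMap A (FF Ω (p * M)) (Q.ϖ ^ (p * n))) := by
    rw [map_pow]; exact (sm_ϖ Q).pow hpn
  have hd0 : algebraMap A (FF Ω (p * M)) (Q.ϖ ^ (p * n)) ≠ 0 := by
    rw [map_pow]; exact pow_ne_zero _ Q.ϖF0
  have f1 : Fo (ng Ω hco hk hM b) (algebraMap A (FF Ω (p * M)) (Q.ϖ ^ (p * n))) f
      (r1 (ng Ω hco hk hM b) H) (r2 (ng Ω hco hk hM b) H) := ⟨H, hH, by rw [hf, map_pow], rfl, rfl⟩
  obtain ⟨t, t', ht, ht', f2⟩ := fo_TTf Z (coprime_of' hℓN) hϖk (pow_ne_zero _ Q.ϖ0) f1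
  have f3 := (f1.zpow hsm (c ℓ)).inv hsm
  have f4 := f2.mul hsm f3
  have hfc := zpow_ne_zero (c ℓ) (f1.uw hsm).ne_zero
  have e1 : TTf Ω ℓ (p * M) f * (f ^ c ℓ)⁻¹ = z ^ p := by rw [h]; field_simp
  rw [e1] at f4
  have hcg : Cg Q (p * n) (z ^ p) 1 := by
    obtain ⟨X, hX, e2, -, -⟩ := f4
    exact ⟨X, hX, by rw [e2, map_pow]⟩
  obtain ⟨z₁, hz₁, e3⟩ := root_cg hpe (by omega) hcg
  have he : p * n + 1 ≤ p * (p - 1) + n := by
    obtain ⟨l, rfl⟩ : ∃ l, p = n + 1 + l := ⟨p - (n + 1), by omega⟩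
    have h3 : n + 1 + l - 1 = n + l := by omega
    rw [h3]
    nlinarith [Nat.zero_le l, mul_nonneg (Nat.zero_le n) (Nat.zero_le l)]
  have f5 := fo_pow_p hpe hn he hz₁ e3
  rw [← map_pow] at f5
  have e4 := (f4.uniq hsm hd0 f5).1
  refine ⟨((r1 (ng Ω hco hk hM b) z₁ : FF k M) : LaurentSeries k), fun i => ?_⟩
  have e5 : t = (c ℓ : FF k M) * r1 (ng Ω hco hk hM b) H + r1 (ng Ω hco hk hM b) z₁ ^ p := by
    linear_combination e4
  have e6 := congrArg (fun y : FF k M => (y : LaurentSeries k).coeff i) e5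
  beta_reduce at e6
  rw [ht, Tr_coeff] at e6
  have e7 : (((c ℓ : FF k M) * r1 (ng Ω hco hk hM b) H + r1 (ng Ω hco hk hM b) z₁ ^ p : FF k M) :
      LaurentSeries k).coeff i = (c ℓ : k) * ((r1 (ng Ω hco hk hM b) H : FF k M) :
        LaurentSeries k).coeff i + (((r1 (ng Ω hco hk hM b) z₁ : FF k M) : LaurentSeries k) ^ p).coeff i := by
    rw [← coe_intCast_mul]
    rfl
  rw [e7] at e6
  rw [← e6]
  ring

/-- **the component lemma for leading terms**, second component -/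
theorem compA2 (ι : Ω →+* ℂ) (hOk : Ok p M) (hPp : ∀ ℓ, P ℓ → ℓ ≠ p) {u : A}
    (hpe : (p : A) = Q.ϖ ^ (p * (p - 1)) * u) {n : ℕ} (hn : 1 ≤ n) (hnp : n < p)
    {f : FF Ω (p * M)} (hE : Eig c P f) {H : FF Ω (p * M)} (hH : H ∈ (ng Ω hco hk hM b).W)
    (hf : f = 1 + algebraMap A (FF Ω (p * M)) Q.ϖ ^ (p * n) * H)
    (hreg : ∀ v : Place k (FF k M), ∃ y, Ge v 0 (r2 (ng Ω hco hk hM b) H - y ^ p)) :
    (∃ y, r2 (ng Ω hco hk hM b) H = y ^ p) ∨ CONC p M c P := by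
  have h1 := PRG.compA1 ι hOk hPp hpe hn hnp (hE.w hco) (w_mem hH) (by
    rw [hf, ← map_pow, algA, w_one_add]) (by rw [r1_w hH]; exact hreg)
  rwa [r1_w hH] at h1

end Fermat.Agent.PRG
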