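import Fermat.Agent.PRG.Asm

/-!
# Removing `p` from the level, from the local input at `p`
-/

set_option autoImplicit false
set_option linter.unusedSectionVars false
set_option linter.style.haveILetI false

noncomputable section

namespace Fermat.Agent.PRG

open ModularCurve Polynomial IntermediateField Fermat.Agent.ModPoly Fermat.Agent.Red
  Fermat.Agent.RedMod Fermat.Agent.Cusp Fermat.Agent.SemiSt AlgebraicCurve Fermat.Agent.Curve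
  Fermat.Agent.RR Fermat.Agent.Nod Fermat.Agent.Flat Fermat.Agent.FlatRam Fermat.Agent.Places
  Module WeierstrassCurve WeierstrassCurve.Affine WeierstrassCurve.Affine.Point Fermat.Agent.PRem

local notation "Ω" => AlgebraicClosure ℚ

/-- The local input at `p`: `E[p]` is an extension of an unramified character by a tame one, and
its field of definition over `ℚ_p^{nr}` is that of the line or wildly ramified with break `1`. -/
def LocIn (E : WeierstrassCurve ℚ) (p : ℕ) [hp : Fact p.Prime]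
    (A : ValuationSubring (AlgebraicClosure ℚ)) (hA : A.LiesOverPrime p) : Prop :=
  ∃ (Q0 : TE E p) (E₀ L : IntermediateField (K0 A) Ω),
    FiniteDimensional (K0 A) E₀ ∧ FiniteDimensional (K0 A) L ∧ E₀ ≤ L ∧
    (∀ τ : Ω ≃ₐ[K0 A] Ω, (∃ n : ℤ, rs τ • Q0 = n • Q0) ∧
      ∀ Q : TE E p, ∃ n : ℤ, rs τ • Q - Q = n • Q0) ∧
    (∀ σ : Ω ≃ₐ[K0 A] Ω, σ ∈ E₀.fixingSubgroup ↔ rs σ • Q0 = Q0) ∧
    (∀ σ : Ω ≃ₐ[K0 A] Ω, σ ∈ L.fixingSubgroup ↔ ∀ Q : TE E p, rs σ • Q = Q) ∧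
    finrank (K0 A) E₀ = p - 1 ∧
    (L = E₀ ∨ (finrank (K0 A) L = p * (p - 1) ∧
      ∃ ϖ ∈ L, ϖ ≠ 0 ∧ (rval A p hA).w ϖ = 1 / (p * (p - 1)) ∧
        ∀ σ ∈ E₀.fixingSubgroup, σ ∉ L.fixingSubgroup →
          σ ϖ - ϖ ≠ 0 ∧ (rval A p hA).w (σ ϖ - ϖ) = 2 / (p * (p - 1))))

attribute [local instance] Spec.algFF

theorem conc_of_loc {E : WeierstrassCurve ℚ} [E.IsElliptic] {p : ℕ} [hp : Fact p.Prime]
    {M : ℕ} [NeZero M] (hOk : Ok p M) (hpM : ¬ p ∣ M)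
    {A : ValuationSubring (AlgebraicClosure ℚ)} (hA : A.LiesOverPrime p) (hloc : LocIn E p A hA)
    (hirr : GaloisRepIsIrreducible (K := AlgebraicClosure ℚ) ℚ E p)
    {W : WeierstrassCurve ℤ} (hW : W.IsIntegralModelOf E)
    {f : CuspForm (CongruenceSubgroup.Gamma0 (p * M)) 2}
    (hf : f.IsNormalizedEigenform) {𝔪 : Ideal (integralClosure ℤ ℂ)} (h𝔪 : 𝔪.IsMaximal)
    (hp𝔪 : (p : integralClosure ℤ ℂ) ∈ 𝔪)
    (hcong : ∀ ℓ : ℕ, ℓ.Prime → W.IsGoodPrimeFor ℓ → ¬ ℓ ∣ p * M → ℓ ≠ p →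
      ∃ b : integralClosure ℤ ℂ, (b : ℂ) = ModularFormClass.qCoeff f ℓ ∧
        b - ((W.apOfModel ℓ : ℤ) : integralClosure ℤ ℂ) ∈ 𝔪) :
    CONC p M (fun ℓ => W.apOfModel ℓ) (fun ℓ => W.IsGoodPrimeFor ℓ ∧ ℓ ≠ p) := by
  have h3 := hOk.three_le
  have hp2 : p ≠ 2 := by omega
  obtain ⟨ι⟩ := exists_ιC
  obtain ⟨κ, hκ, hκσ, hκT⟩ := exists_blr (N := p * M) ι hW hp2 hirr hf h𝔪 hp𝔪 hcong
  obtain ⟨ℓ, hℓ, hℓN, hℓp, hℓW, hne⟩ := exists_not_eis hp2 hW hirr (p * M) (NeZero.ne _)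
  haveI : Fact ℓ.Prime := ⟨hℓ⟩
  haveI : CharP (kk A) p := RedMod.charP_residue hA
  have hk : Function.Surjective (algebraMap A (kk A)) := IsLocalRing.residue_surjective
  have hM : (M : kk A) ≠ 0 := natCast_residue_ne_zero hA hpM
  have hco : p.Coprime M := (Nat.Prime.coprime_iff_not_dvd hp.out).2 hpM
  haveI := funField_FF (k := kk A) (M := M) hM
  haveI := funField_FF (k := Ω) (M := M) (natCast_ne_zero_K Ω M)
  haveI := funField_FF (k := Ω) (M := p * M) (natCast_ne_zero_K Ω (p * M))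
  have hgen := Spec.rrGenus_eq_level (A := A) (K := Ω) ι hk hM
  have hrank := hrank_of hk hA
  have hq1 := hp.out.one_lt
  obtain ⟨b', hb'⟩ := exists_pow_ne (kk A) (n := p * p) (by nlinarith)
  obtain ⟨b, hb, rfl⟩ : ∃ b : A, (b : Ω) ∈ K0 A ∧ algebraMap A (kk A) b = b' := by
    obtain ⟨r, hr⟩ := algebraMap_kk_surjective hA b'
    exact ⟨⟨r, r.2.1⟩, r.2.2, hr⟩
  have H := nodMod_ng (K := Ω) hco hk hM hgen b hb'
  haveI := nonempty_nd (K := Ω) hco hk hM hgen b hb' hrank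
  obtain ⟨Q0, E₀, L, hfdE₀, hfdL, hE₀L, hI, hE₀, hL, hfE₀, hcase⟩ := hloc
  have hT : ∀ x : TE E p, p • x = 0 := fun x => by
    apply Subtype.ext
    have := (Submodule.mem_torsionBy_iff _ _).1 x.2
    rw [natCast_zsmul] at this
    exact this
  obtain ⟨Q, hQ⟩ := exists_not_mem (E := E) hp2 Q0
  exact concl_all (c := fun ℓ => W.apOfModel ℓ) (P := fun ℓ => W.IsGoodPrimeFor ℓ ∧ ℓ ≠ p)
    H ι hA hOk (fun ℓ h => h.2) hb hT κ hκ hκσ
    (fun Q l hl hlN hPl => hκT ∅ l hl hlN (Set.notMem_empty l) hPl.2 hPl.1 Q) (Q0 := Q0) hI hQ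
    hE₀L hE₀ hL hfE₀ hcase hℓN ⟨hℓW, hℓp⟩ hne

/-- **`p`-removal from the local input** -/
theorem prem_of_loc (W : WeierstrassCurve ℤ) (hΔ : W.Δ ≠ 0) {p : ℕ} [hp : Fact p.Prime]
    (hirr : W.ModRepIsIrreducible p) {M : ℕ} (hM : 0 < M) (hOk : Ok p M) (hpM : ¬ p ∣ M)
    {A : ValuationSubring (AlgebraicClosure ℚ)} (hA : A.LiesOverPrime p)
    (hloc : LocIn (W.map (Int.castRingHom ℚ)) p A hA)
    (hmod : W.IsResiduallyModularOfLevel p (p * M)) : W.IsResiduallyModularOfLevel p M := by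
  haveI : NeZero M := ⟨hM.ne'⟩
  haveI : (W.map (Int.castRingHom ℚ)).IsElliptic := by
    refine ⟨isUnit_iff_ne_zero.2 ?_⟩
    rw [WeierstrassCurve.map_Δ]
    simpa using hΔ
  obtain ⟨f, 𝔪, hf, h𝔪, hp𝔪, hcong⟩ := hmod
  have hW : W.IsIntegralModelOf (W.map (Int.castRingHom ℚ)) := ⟨1, one_smul _ _⟩
  obtain ⟨g, hg, m, hm, hpm, h⟩ := conc_of_loc hOk hpM hA hloc hirr hW hf h𝔪 hp𝔪 hcong
  refine ⟨g, m, hg, hm, hpm, fun ℓ hℓ hgood hℓM hℓp => h ℓ hℓ hℓM ⟨hgood, hℓp⟩⟩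

end Fermat.Agent.PRG
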