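import Fermat.Agent.PRG.Final
import Fermat.Agent.CL.Inert

/-!
# The field of definition of the `p`-torsion from abstract local data
-/

set_option autoImplicit false
set_option linter.unusedSectionVars false
set_option linter.style.haveILetI false

noncomputable section

namespace Fermat.Agent.PRG

open WeierstrassCurve WeierstrassCurve.Affine WeierstrassCurve.Affine.Point
open IntermediateField Module Fermat.Agent.FlatRam Fermat.Agent.FlatRam.RVal Fermat.Agent.Flat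
open Fermat.Agent.EC Fermat.Agent.PRem

local notation "Ω" => AlgebraicClosure ℚ

section

variable {A : ValuationSubring (AlgebraicClosure ℚ)} {p : ℕ} [hp : Fact p.Prime]
  [DecidableEq (AlgebraicClosure ℚ)] {W : Affine ℚ}

/-- Abstract local data. -/
structure LD (hA : A.LiesOverPrime p) (Q0 Q1 : (W⁄Ω).Point) (z u : Ω) : Prop where
  Q00 : Q0 ≠ 0
  pQ0 : p • Q0 = 0
  pQ1 : p • Q1 = 0
  span : ∀ Q, p • Q = 0 → ∃ a b : ℤ, Q = a • Q0 + b • Q1
  sQ0 : ∀ τ : Ω ≃ₐ[K0 A] Ω, ∃ n : ℤ, rs τ • Q0 = n • Q0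
  sub : ∀ τ : Ω ≃ₐ[K0 A] Ω, ∀ Q, p • Q = 0 → ∃ n : ℤ, rs τ • Q - Q = n • Q0
  zM : z ∈ FD A {Q0}
  z0 : z ≠ 0
  wz : (rval A p hA).w z = 1 / (p - 1)
  uL : u ∈ FD A {Q : (W⁄Ω).Point | p • Q = 0}
  hu : (rval A p hA).Gt 0 u
  fix : ∀ τ : Ω ≃ₐ[K0 A] Ω, rs τ • Q1 = Q1 → τ u = u
  move : ∀ τ : Ω ≃ₐ[K0 A] Ω, rs τ • Q1 ≠ Q1 → τ u - u ≠ 0 ∧
    (rval A p hA).w (τ u - u) = 1 / (p - 1)

namespace LD

variable {hA : A.LiesOverPrime p} {Q0 Q1 : (W⁄Ω).Point} {z u : Ω} (D : LD hA Q0 Q1 z u)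
include D

theorem exists_nat (n : ℤ) : ∃ m < p, n • Q0 = m • Q0 :=
  exists_nat_of_nsmul hp.out.pos D.pQ0 n

theorem smul_ne (τ : Ω ≃ₐ[ℚ] Ω) : τ • Q0 ≠ 0 := by
  intro h
  apply D.Q00
  have h1 : τ⁻¹ • (τ • Q0) = τ⁻¹ • 0 := by rw [h]
  rw [inv_smul_smul] at h1
  have h2 := smul_zero (A := (W⁄Ω).Point) τ⁻¹
  exact h1.trans h2

theorem two_lt (hp2 : p ≠ 2) : (0 : ℚ) < p - 1 ∧ (2 : ℚ) < p := by
  have h1 : 2 < p := lt_of_le_of_ne hp.out.two_le (Ne.symm hp2)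
  have h2 : (2 : ℚ) < p := by exact_mod_cast h1
  exact ⟨by linarith, h2⟩

open Classical in
theorem finrank_M_le : finrank (K0 A) (FD A {Q0}) ≤ p - 1 := by
  refine (finrank_FD_le (Set.finite_singleton Q0) (fun τ => rs τ • Q0)
    ((Finset.Icc 1 (p - 1)).image fun n => n • Q0) ?_ ?_).trans
      (Finset.card_image_le.trans (by simp))
  · intro τ
    obtain ⟨n, hn⟩ := D.sQ0 τ
    obtain ⟨m, hm, hmn⟩ := D.exists_nat n
    rw [Finset.mem_image]
    refine ⟨m, ?_, by rw [hn, hmn]⟩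
    rw [Finset.mem_Icc]
    have hm0 : m ≠ 0 := by
      rintro rfl
      rw [zero_nsmul] at hmn
      rw [hmn] at hn
      exact D.smul_ne _ hn
    omega
  · intro τ τ' h Q hQ
    rw [Set.mem_singleton_iff] at hQ
    rw [hQ]; exact h

omit D in
theorem finite_T (hp2 : p ≠ 2) : {Q : (W⁄Ω).Point | p • Q = 0}.Finite :=
  (finite_torsion (W := W⁄Ω) (hp.out.odd_of_ne_two hp2)
    (Nat.cast_ne_zero.2 hp.out.ne_zero)).1

omit D in
theorem smul_zsmul' (τ : Ω ≃ₐ[ℚ] Ω) (n : ℤ) (Q : (W⁄Ω).Point) : τ • (n • Q) = n • (τ • Q) :=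
  algEquiv_smul_zsmul τ n Q

/-- automorphisms agreeing on `Q0`, `Q1` agree on the `p`-torsion -/
theorem eq_of_eq {τ τ' : Ω ≃ₐ[ℚ] Ω} (h0 : τ • Q0 = τ' • Q0) (h1 : τ • Q1 = τ' • Q1)
    {Q : (W⁄Ω).Point} (hQ : p • Q = 0) : τ • Q = τ' • Q := by
  obtain ⟨a, b, rfl⟩ := D.span Q hQ
  have e : ∀ σ : Ω ≃ₐ[ℚ] Ω, σ • (a • Q0 + b • Q1) = a • (σ • Q0) + b • (σ • Q1) := by
    intro σ
    rw [← smul_zsmul', ← smul_zsmul']
    exact smul_add σ (a • Q0) (b • Q1)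
  rw [e, e, h0, h1]

open Classical in
theorem finrank_L_le (hp2 : p ≠ 2) :
    finrank (K0 A) (FD A {Q : (W⁄Ω).Point | p • Q = 0}) ≤ (p - 1) * p := by
  refine (finrank_FD_le (finite_T hp2) (fun τ => (rs τ • Q0, rs τ • Q1 - Q1))
    (((Finset.Icc 1 (p - 1)).image fun n => n • Q0) ×ˢ ((Finset.range p).image fun n => n • Q0))
    ?_ ?_).trans ?_
  · intro τ
    rw [Finset.mem_product]
    constructor
    · obtain ⟨n, hn⟩ := D.sQ0 τ
      obtain ⟨m, hm, hmn⟩ := D.exists_nat n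
      rw [Finset.mem_image]
      refine ⟨m, ?_, by rw [← hmn]; exact hn.symm⟩
      rw [Finset.mem_Icc]
      have hm0 : m ≠ 0 := by
        rintro rfl
        rw [zero_nsmul] at hmn
        rw [hmn] at hn
        exact D.smul_ne _ hn
      omega
    · obtain ⟨n, hn⟩ := D.sub τ Q1 D.pQ1
      obtain ⟨m, hm, hmn⟩ := D.exists_nat n
      rw [Finset.mem_image]
      exact ⟨m, Finset.mem_range.2 hm, by rw [← hmn]; exact hn.symm⟩
  · intro τ τ' h Q hQ
    rw [Prod.mk.injEq] at h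
    refine D.eq_of_eq h.1 ?_ hQ
    exact sub_left_inj.1 h.2
  · rw [Finset.card_product]
    exact Nat.mul_le_mul (Finset.card_image_le.trans (by simp))
      (Finset.card_image_le.trans (by simp))

theorem dvd_of_z (hp2 : p ≠ 2) {E : IntermediateField (K0 A) Ω} [FiniteDimensional (K0 A) E]
    (hzE : z ∈ E) : ∃ e : ℕ, finrank (K0 A) E = (p - 1) * e := by
  have hp1 := (D.two_lt hp2).1
  obtain ⟨n, hn⟩ := exists_int (rval A p hA) E (x := ⟨z, hzE⟩)
    (fun h => D.z0 (congrArg Subtype.val h))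
  have hn' : (finrank (K0 A) E : ℚ) * (rval A p hA).w z = n := hn
  rw [D.wz] at hn'
  have h3 : (finrank (K0 A) E : ℚ) = n * (p - 1) := by
    field_simp at hn'
    linarith
  have h4 : (finrank (K0 A) E : ℤ) = n * ((p - 1 : ℕ) : ℤ) := by
    have : ((p - 1 : ℕ) : ℚ) = p - 1 := by
      rw [Nat.cast_sub hp.out.one_lt.le, Nat.cast_one]
    rw [← this] at h3
    exact_mod_cast h3
  exact Int.natCast_dvd_natCast.1 ⟨n, by rw [h4, mul_comm]⟩

theorem finrank_M (hp2 : p ≠ 2) : finrank (K0 A) (FD A {Q0}) = p - 1 := by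
  haveI := finite_FD (A := A) (Set.finite_singleton Q0)
  refine le_antisymm D.finrank_M_le ?_
  obtain ⟨e, he⟩ := D.dvd_of_z hp2 D.zM
  exact Nat.le_of_dvd finrank_pos ⟨e, he⟩

theorem pow_smul_Q1 {σ : Ω ≃ₐ[K0 A] Ω} (h0 : rs σ • Q0 = Q0) : rs (σ ^ p) • Q1 = Q1 := by
  rw [rs_pow]
  obtain ⟨n, hn⟩ := D.sub σ Q1 D.pQ1
  have h1 : rs σ • Q1 = Q1 + n • Q0 := by rw [← hn]; abel
  have h2 : ∀ k : ℕ, rs σ ^ k • Q1 = Q1 + k • (n • Q0) := by
    intro k
    induction k with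
    | zero => rw [pow_zero, one_smul, zero_nsmul, add_zero]
    | succ k ih =>
      rw [pow_succ', mul_smul, ih]
      have e1 := smul_add (rs σ) Q1 (k • (n • Q0))
      have e2 : rs σ • (k • (n • Q0)) = k • (n • Q0) := by
        rw [← natCast_zsmul, smul_zsmul', smul_zsmul', h0]
      rw [e2] at e1
      refine e1.trans ?_
      rw [h1, succ_nsmul]
      abel
  rw [h2 p]
  have h3 : p • (n • Q0) = 0 := nsmul_zsmul_eq_zero D.pQ0 n
  rw [h3, add_zero]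

set_option maxHeartbeats 1000000 in
theorem main_L (hp2 : p ≠ 2) :
    FD A {Q : (W⁄Ω).Point | p • Q = 0} = FD A {Q0} ∨
    (finrank (K0 A) (FD A {Q : (W⁄Ω).Point | p • Q = 0}) = p * (p - 1) ∧
      ∃ ϖ ∈ FD A {Q : (W⁄Ω).Point | p • Q = 0}, ϖ ≠ 0 ∧
        (rval A p hA).w ϖ = 1 / (p * (p - 1)) ∧
        ∀ σ ∈ (FD A {Q0}).fixingSubgroup,
          σ ∉ (FD A {Q : (W⁄Ω).Point | p • Q = 0}).fixingSubgroup →
          σ ϖ - ϖ ≠ 0 ∧ (rval A p hA).w (σ ϖ - ϖ) = 2 / (p * (p - 1))) := by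
  obtain ⟨hp1, hp2'⟩ := D.two_lt hp2
  have hle : FD A {Q0} ≤ FD A {Q : (W⁄Ω).Point | p • Q = 0} :=
    FD_mono (Set.singleton_subset_iff.2 D.pQ0)
  by_cases hLM : ∀ σ : Ω ≃ₐ[K0 A] Ω, rs σ • Q0 = Q0 → rs σ • Q1 = Q1
  · left
    refine le_antisymm ?_ hle
    rw [← InfiniteGalois.fixedField_fixingSubgroup (FD A {Q0}), le_iff_le]
    intro σ hσ
    rw [mem_FD] at hσ ⊢
    have h0 := hσ Q0 rfl
    intro Q hQ
    have h1 : rs σ • Q = (1 : Ω ≃ₐ[ℚ] Ω) • Q :=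
      D.eq_of_eq (by rw [h0, one_smul]) (by rw [hLM σ h0, one_smul]) hQ
    rw [h1, one_smul]
  right
  push Not at hLM
  obtain ⟨σ₀, hσ0, hσ1⟩ := hLM
  haveI hfL := finite_FD (A := A) (finite_T (W := W) hp2)
  have hzM := D.zM
  have hz0 := D.z0
  have hz := D.wz
  have hfix := D.fix
  have hmove := D.move
  have hu0 : u ≠ 0 := by
    intro h0
    have := (hmove σ₀ hσ1).1
    rw [h0, _root_.map_zero, sub_self] at this
    exact this rfl
  obtain ⟨q, hq⟩ : ∃ q, q = (rval A p hA).w u := ⟨_, rfl⟩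
  have hq0 : 0 < q := by rw [hq]; exact D.hu.lt hu0
  -- wild
  have hq1 : q < 1 / (p - 1) := by
    have h5 : FxV (rval A p hA) σ₀ u := by
      refine fx_of_pow hA hu0 ?_
      apply hfix
      exact D.pow_smul_Q1 hσ0
    rw [fx_iff hu0] at h5
    obtain ⟨h6, h7⟩ := hmove σ₀ hσ1
    have := h5.lt h6
    rwa [h7, ← hq] at this
  have hFx : ∀ τ : Ω ≃ₐ[K0 A] Ω, FxV (rval A p hA) τ u := by
    intro τ
    rw [fx_iff hu0]
    by_cases hτ : rs τ • Q1 = Q1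
    · left; rw [hfix τ hτ, sub_self]
    · right
      rw [(hmove τ hτ).2, ← hq]
      exact hq1
  -- memberships
  have huL := D.uL
  have hzL := hle hzM
  obtain ⟨e, he⟩ := D.dvd_of_z hp2 hzL
  have hd0 : 0 < finrank (K0 A) (FD A {Q : (W⁄Ω).Point | p • Q = 0}) := finrank_pos
  have hpn : 0 < p - 1 := by have := hp.out.one_lt; omega
  have he0 : 0 < e := by
    rcases Nat.eq_zero_or_pos e with rfl | h
    · rw [he, mul_zero] at hd0; exact absurd hd0 (lt_irrefl _)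
    · exact h
  have hep : e ≤ p := by
    have h5 := D.finrank_L_le hp2
    rw [he] at h5
    exact Nat.le_of_mul_le_mul_left h5 hpn
  obtain ⟨n, hn⟩ := exists_int (rval A p hA) (FD A {Q : (W⁄Ω).Point | p • Q = 0})
    (x := ⟨u, huL⟩) (fun h => hu0 (congrArg Subtype.val h))
  have hn' : ((p - 1 : ℚ) * e) * q = n := by
    rw [hq, ← hn, he]
    push_cast [Nat.cast_sub hp.out.one_lt.le]
    rfl
  have heQ : (0 : ℚ) < e := by exact_mod_cast he0
  have hnpos : 0 < n := by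
    have : (0 : ℚ) < n := by rw [← hn']; positivity
    exact_mod_cast this
  obtain ⟨k, rfl⟩ : ∃ k : ℕ, n = k := ⟨n.toNat, (Int.toNat_of_nonneg hnpos.le).symm⟩
  have hwk : (rval A p hA).w (u ^ e) = (rval A p hA).w (z ^ k) := by
    rw [w_pow hu0, w_pow hz0, hz, ← hq]
    have : (k : ℚ) = (p - 1) * e * q := by rw [hn']; simp
    rw [this]
    field_simp
  haveI hfM := finite_FD (A := A) (Set.finite_singleton Q0)
  obtain ⟨n2, hn2⟩ := tame_int (rval A p hA) (FD A {Q0}) (x := z ^ k) (by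
      rw [D.finrank_M hp2]
      intro hdvd
      have := Nat.le_of_dvd hpn hdvd
      omega) (pow_mem hzM k) (pow_ne_zero k hz0) (fun τ =>
      ((hFx τ).pow hu0 e).congr (pow_ne_zero e hu0) (pow_ne_zero k hz0) hwk)
  rw [← hwk, w_pow hu0, ← hq] at hn2
  have hn2pos : 0 < n2 := by
    have : (0 : ℚ) < n2 := by rw [← hn2]; positivity
    exact_mod_cast this
  have hn2' : (1 : ℚ) ≤ n2 := by exact_mod_cast hn2pos
  have hq1' : q * (p - 1) < 1 := by rwa [lt_div_iff₀ hp1] at hq1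
  have hge : (p : ℚ) - 1 < e := by
    have h5 : (1 : ℚ) ≤ e * q := by rw [hn2]; exact hn2'
    by_contra hcon
    push Not at hcon
    have : e * q ≤ (p - 1) * q := mul_le_mul_of_nonneg_right hcon hq0.le
    linarith
  have hep' : e = p := by
    have h5 : ((p - 1 : ℕ) : ℚ) < e := by
      rw [Nat.cast_sub hp.out.one_lt.le, Nat.cast_one]; exact hge
    have h6 : p - 1 < e := by exact_mod_cast h5
    omega
  subst hep'
  have hn21 : n2 = 1 := by
    have h5 : (n2 : ℚ) < 2 := by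
      rw [← hn2]
      nlinarith
    have h6 : n2 < 2 := by exact_mod_cast h5
    omega
  rw [hn21, Int.cast_one] at hn2
  have he' : (0 : ℚ) < e := heQ
  have hqe : q = 1 / e := by field_simp; linarith
  refine ⟨by rw [he, mul_comm], z / u, div_mem hzL huL, div_ne_zero hz0 hu0, ?_, ?_⟩
  · rw [w_div hz0 hu0, hz, ← hq, hqe]
    field_simp
    ring
  · intro σ hσM hσL
    have h5 : rs σ • Q0 = Q0 := mem_FD.1 hσM Q0 rfl
    have h6 : rs σ • Q1 ≠ Q1 := by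
      intro h6
      apply hσL
      rw [mem_FD]
      intro Q hQ
      have h1 : rs σ • Q = (1 : Ω ≃ₐ[ℚ] Ω) • Q :=
        D.eq_of_eq (by rw [h5, one_smul]) (by rw [h6, one_smul]) hQ
      rw [h1, one_smul]
    have h7 : σ z = z := (IntermediateField.mem_fixingSubgroup_iff _ _).1 hσM z hzM
    obtain ⟨h8, h9⟩ := hmove σ h6
    have hσu : σ u ≠ 0 := map_ne hu0
    have e1 : σ (z / u) - z / u = -(z * (σ u - u) / (u * σ u)) := by
      rw [map_div₀, h7]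
      field_simp
      ring
    rw [e1]
    refine ⟨neg_ne_zero.2 (div_ne_zero (mul_ne_zero hz0 h8) (mul_ne_zero hu0 hσu)), ?_⟩
    rw [w_neg, w_div (mul_ne_zero hz0 h8) (mul_ne_zero hu0 hσu), w_mul hz0 h8, w_mul hu0 hσu,
      (rval A e hA).w_gal, h9, hz, ← hq, hqe]
    field_simp
    ring

end LD

end

/-- the local input from the abstract local data -/
theorem LD.locIn {A : ValuationSubring (AlgebraicClosure ℚ)} {p : ℕ} [hp : Fact p.Prime] {E : WeierstrassCurve ℚ} (hA : A.LiesOverPrime p) (hp2 : p ≠ 2)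
    {Q0 Q1 : (E⁄Ω).Point} {z u : Ω} (D : LD (W := E) hA Q0 Q1 z u) : LocIn E p A hA := by
  obtain ⟨Q0', rfl⟩ : ∃ Q0' : TE E p, (Q0' : (E⁄Ω).Point) = Q0 :=
    ⟨⟨Q0, by rw [Submodule.mem_torsionBy_iff, natCast_zsmul]; exact D.pQ0⟩, rfl⟩
  have hT : ∀ x : TE E p, p • x = 0 := fun x => by
    apply Subtype.ext
    have := (Submodule.mem_torsionBy_iff _ _).1 x.2
    rw [natCast_zsmul] at this
    exact this
  refine ⟨Q0', FD A {(Q0' : (E⁄Ω).Point)}, FD A {Q : (E⁄Ω).Point | p • Q = 0},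
    finite_FD (Set.finite_singleton _), finite_FD (LD.finite_T hp2),
    FD_mono (Set.singleton_subset_iff.2 D.pQ0), fun τ => ?_, fun σ => ?_, fun σ => ?_,
    D.finrank_M hp2, D.main_L hp2⟩
  · obtain ⟨n, hn⟩ := D.sQ0 τ
    refine ⟨⟨n, Subtype.ext hn⟩, fun Q => ?_⟩
    obtain ⟨m, hm⟩ := D.sub τ Q.1 (congrArg Subtype.val (hT Q))
    exact ⟨m, Subtype.ext hm⟩
  · rw [mem_FD]
    exact ⟨fun h => Subtype.ext (h _ rfl), fun h Q hQ => by
      rw [Set.mem_singleton_iff.1 hQ]; exact congrArg Subtype.val h⟩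
  · rw [mem_FD]
    exact ⟨fun h Q => Subtype.ext (h Q.1 (congrArg Subtype.val (hT Q))), fun h Q hQ =>
      congrArg Subtype.val (h ⟨Q, by rw [Submodule.mem_torsionBy_iff, natCast_zsmul]; exact hQ⟩)⟩

end Fermat.Agent.PRG
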