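import Fermat.Agent.PRG.Mult

/-!
# Removing `p` from the level: ordinary and multiplicative case
-/

set_option autoImplicit false
set_option linter.unusedSectionVars false
set_option linter.style.haveILetI false

noncomputable section

namespace Fermat.Agent.PRG

open WeierstrassCurve WeierstrassCurve.Affine WeierstrassCurve.Affine.Point
open IntermediateField Module Fermat.Agent.FlatRam Fermat.Agent.FlatRam.RVal Fermat.Agent.Flat
open Fermat.Agent.EC Fermat.Agent.PRem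

local notation "Ω" => AlgebraicClosure ℚ

variable {A : ValuationSubring (AlgebraicClosure ℚ)} {p : ℕ} [hp : Fact p.Prime]

/-- the local input, good ordinary reduction -/
theorem loc_ord (W : WeierstrassCurve ℤ) (hp2 : p ≠ 2) (hgood : W.IsGoodPrimeFor p)
    (hA : A.LiesOverPrime p) {P : ((W.map (Int.castRingHom ℚ))⁄Ω).Point} (hP : P ≠ 0)
    (hpP : p • P = 0) (hx : xc P ∈ A) : LocIn (W.map (Int.castRingHom ℚ)) p A hA := by
  obtain ⟨Q0, z, u, D⟩ := ord_LD (W := W.map (Int.castRingHom ℚ)) hA hp2 (CL.isInt_EQ W _) (by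
    rw [CL.val_Δ]
    exact val_int_eq_one_of_not_dvd _ hp.out hA hgood) hP hpP
    ((A.valuation_le_one_iff _).2 hx)
  exact D.locIn hA hp2

/-- the local input, multiplicative reduction -/
theorem loc_mult (W : WeierstrassCurve ℤ) (hΔ : W.Δ ≠ 0) (hp2 : p ≠ 2) (hd : (p : ℤ) ∣ W.Δ)
    (hc4 : ¬ (p : ℤ) ∣ W.c₄) (hdiv : p ∣ padicValInt p W.Δ) (hA : A.LiesOverPrime p) :
    LocIn (W.map (Int.castRingHom ℚ)) p A hA := by
  have hM : CL.IsMult A.valuation ((CL.EQ W)⁄Ω) := by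
    refine ⟨CL.isInt_EQ W _, ?_, ?_, ?_, val_nat_le _⟩
    · rw [CL.val_Δ]
      exact val_int_lt _ hA hd
    · rw [CL.EQK_eq, WeierstrassCurve.map_c₄, eq_intCast]
      exact val_int_eq_one_of_not_dvd _ hp.out hA hc4
    · rw [CL.EQK_eq, WeierstrassCurve.map_Δ, eq_intCast]
      exact_mod_cast hΔ
  obtain ⟨k, hk⟩ := hdiv
  obtain ⟨d, hd'⟩ : ((p : ℤ) ^ padicValInt p W.Δ) ∣ W.Δ := padicValInt_dvd W.Δ
  have hdp : ¬ (p : ℤ) ∣ d := by
    intro hpd
    have h1 : (p : ℤ) ^ (padicValInt p W.Δ + 1) ∣ W.Δ := by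
      obtain ⟨c, hc⟩ := hpd
      refine ⟨c, ?_⟩
      nth_rewrite 1 [hd']
      rw [hc]; ring
    rw [padicValInt_dvd_iff] at h1
    rcases h1 with h1 | h1
    · exact hΔ h1
    · omega
  have hd0 : d ≠ 0 := by
    rintro rfl
    exact hdp (dvd_zero _)
  have hwd : (rval A p hA).w (d : Ω) = 0 := by
    have h1 := val_int_eq_one_of_not_dvd A.valuation hp.out hA hdp
    have hd0' : (d : Ω) ≠ 0 := by exact_mod_cast hd0
    rwa [← _root_.map_one A.valuation, v_eq_iff hA hd0' one_ne_zero, w_one] at h1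
  have hw : (rval A p hA).w ((CL.EQ W)⁄Ω).Δ = p * (k : ℤ) := by
    have hp0 : (p : Ω) ≠ 0 := Nat.cast_ne_zero.2 hp.out.ne_zero
    have hd0' : (d : Ω) ≠ 0 := by exact_mod_cast hd0
    have e : ((CL.EQ W)⁄Ω).Δ = (p : Ω) ^ (p * k) * (d : Ω) := by
      rw [CL.EQK_eq, WeierstrassCurve.map_Δ, eq_intCast, ← hk]
      nth_rewrite 1 [hd']
      push_cast
      rfl
    rw [e, w_mul (pow_ne_zero _ hp0) hd0', w_pow hp0, (rval A p hA).w_p, hwd]
    push_cast
    ring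
  obtain ⟨Q0, Q1, z, u, D⟩ := mult_LD (W := W.map (Int.castRingHom ℚ)) hA hp2 hM hw
  exact D.locIn hA hp2

/-- **`p`-removal, good ordinary reduction** -/
theorem remove_ord (W : WeierstrassCurve ℤ) (hΔ : W.Δ ≠ 0) (hp2 : p ≠ 2)
    (hirr : W.ModRepIsIrreducible p) (hgood : W.IsGoodPrimeFor p) {M : ℕ} (hM : 0 < M)
    (hOk : Ok p M) (hpM : ¬ p ∣ M) (hA : A.LiesOverPrime p)
    {P : ((W.map (Int.castRingHom ℚ))⁄Ω).Point} (hP : P ≠ 0) (hpP : p • P = 0) (hx : xc P ∈ A)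
    (hmod : W.IsResiduallyModularOfLevel p (p * M)) : W.IsResiduallyModularOfLevel p M :=
  prem_of_loc W hΔ hirr hM hOk hpM hA (loc_ord W hp2 hgood hA hP hpP hx) hmod

/-- **`p`-removal, multiplicative reduction, `p ∣ v_p(Δ)`** -/
theorem remove_mult (W : WeierstrassCurve ℤ) (hΔ : W.Δ ≠ 0) (hp2 : p ≠ 2)
    (hirr : W.ModRepIsIrreducible p) (hd : (p : ℤ) ∣ W.Δ) (hc4 : ¬ (p : ℤ) ∣ W.c₄)
    (hdiv : p ∣ padicValInt p W.Δ) {M : ℕ} (hM : 0 < M) (hOk : Ok p M) (hpM : ¬ p ∣ M)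
    (hmod : W.IsResiduallyModularOfLevel p (p * M)) : W.IsResiduallyModularOfLevel p M := by
  obtain ⟨A, hA⟩ := Places.exists_liesOverPrime Ω hp.out
  exact prem_of_loc W hΔ hirr hM hOk hpM hA (loc_mult W hΔ hp2 hd hc4 hdiv hA) hmod

end Fermat.Agent.PRG
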