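import Fermat.Agent.PRG.Ordi
import Fermat.Agent.CL.Model

/-!
# The local input at `p`: multiplicative reduction, `p ∣ v(Δ)`
-/

set_option autoImplicit false
set_option linter.unusedSectionVars false
set_option linter.style.haveILetI false

noncomputable section

namespace Fermat.Agent.PRG

open WeierstrassCurve WeierstrassCurve.Affine WeierstrassCurve.Affine.Point
open IntermediateField Module Fermat.Agent.FlatRam Fermat.Agent.FlatRam.RVal Fermat.Agent.Flat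
open Fermat.Agent.EC Fermat.Agent.PRem

section gen

variable {K : Type*} [Field K] {Γ₀ : Type*} [LinearOrderedCommGroupWithZero Γ₀]
  {v : Valuation K Γ₀} {W : WeierstrassCurve K}

/-- the `2`-torsion point away from the node -/
theorem exists_far [IsAlgClosed K] [CharZero K] (h2 : v (2 : K) = 1) {r t : K} (M : IntT v W r t)
    (hm : v (tA4 W r t) < 1) (hB : v (W.a₁ ^ 2 + 4 * tA2 W r) = 1) :
    ∃ r' t' : K, TModel W r' t' ∧ v r' ≤ 1 ∧ v (tA4 W r' t') = 1 ∧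
      v ((-W.b₂ / 8 - r' / 2) - r) = v (tA4 W r t) := by
  have hn : ∀ n : ℕ, v (n : K) ≤ 1 := nat_le
  set B := W.a₁ ^ 2 + 4 * tA2 W r with hBdef
  have h4 : v (4 : K) = 1 := by rw [show (4 : K) = 2 * 2 by norm_num, map_mul, h2, one_mul]
  have h40 : (4 : K) ≠ 0 := by norm_num
  have hBe : B = W.b₂ + 12 * r := by rw [hBdef, tA2, WeierstrassCurve.b₂]; ring
  -- a unit root
  obtain ⟨z, hzv, hz⟩ : ∃ z, v z = 1 ∧ 4 * z ^ 2 + B * z + 4 * tA4 W r t = 0 := by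
    have hdeg : (Polynomial.C (4 : K) * Polynomial.X ^ 2 + Polynomial.C B * Polynomial.X +
        Polynomial.C (4 * tA4 W r t)).degree ≠ 0 := by
      rw [Polynomial.degree_quadratic h40]; decide
    obtain ⟨z, hz⟩ := IsAlgClosed.exists_root _ hdeg
    simp only [Polynomial.IsRoot.def, Polynomial.eval_add, Polynomial.eval_mul,
      Polynomial.eval_pow, Polynomial.eval_X, Polynomial.eval_C] at hz
    have hz1 : v z ≤ 1 := by
      by_contra hgt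
      push Not at hgt
      have h5 : 4 * z ^ 2 = -(B * z + 4 * tA4 W r t) := by linear_combination hz
      have h6 := congrArg v h5
      rw [map_mul, h4, one_mul, map_pow, Valuation.map_neg] at h6
      have h7 : v (B * z + 4 * tA4 W r t) ≤ v z := by
        refine v.map_add_le ?_ ?_
        · rw [map_mul, hB, one_mul]
        · rw [map_mul, h4, one_mul]; exact hm.le.trans hgt.le
      rw [← h6, sq] at h7
      exact absurd h7 (not_le.2 (lt_mul_of_one_lt_left (zero_lt_one.trans hgt) hgt))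
    rcases hz1.lt_or_eq with hlt | heq
    · refine ⟨-B / 4 - z, ?_, ?_⟩
      · rw [Valuation.map_sub_eq_of_lt_left, map_div₀, Valuation.map_neg, hB, h4, div_one]
        rw [map_div₀, Valuation.map_neg, hB, h4, div_one]
        exact hlt
      · have : (4 : K) * (-B / 4 - z) ^ 2 + B * (-B / 4 - z) + 4 * tA4 W r t =
            4 * z ^ 2 + B * z + 4 * tA4 W r t := by
          field_simp
          ring
        rw [this, hz]
    · exact ⟨z, heq, hz⟩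
  set z₁ := -B / 4 - z with hz₁
  have hzz : z * z₁ = tA4 W r t := by
    have : 4 * (z * z₁) = 4 * tA4 W r t := by
      rw [hz₁]
      linear_combination (-1) * hz
    exact mul_left_cancel₀ h40 this
  have hvz₁ : v z₁ = v (tA4 W r t) := by rw [← hzz, map_mul, hzv, one_mul]
  have h2t := M.two
  have hE' := M.eqn
  rw [equation_iff] at hE'
  set r' := r + z with hr'
  set t' : K := -(W.a₁ * r' + W.a₃) / 2 with ht'
  have h2t' : 2 * t' = -(W.a₁ * r' + W.a₃) := by rw [ht']; field_simp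
  have hE : W.toAffine.Equation r' t' := by
    rw [equation_iff]
    refine mul_left_cancel₀ h40 ?_
    have hz3 : z * (4 * z ^ 2 + B * z + 4 * tA4 W r t) = 0 := by rw [hz, mul_zero]
    rw [hBdef] at hz3
    simp only [tA2, tA4] at hz3
    rw [hr'] at h2t' ⊢
    linear_combination (2 * t' + W.a₁ * (r + z) + W.a₃) * h2t' -
      (2 * t + W.a₁ * r + W.a₃) * h2t - hz3 + 4 * hE' - 2 * z * W.a₁ * h2t
  have M' : TModel W r' t' := ⟨hE, by rw [h2t']; ring⟩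
  have hA' : tA4 W r' t' = z * (z - z₁) := by
    have : 4 * tA4 W r' t' = 4 * (z * (z - z₁)) := by
      have e1 : 4 * tA4 W r' t' = 4 * (3 * r' ^ 2 + 2 * W.a₂ * r' + W.a₄) - 2 * W.a₁ * (2 * t') := by
        rw [tA4]; ring
      have hz' := hz
      rw [hBdef] at hz'
      simp only [tA2, tA4] at hz'
      rw [e1, h2t', hr', hz₁, hBdef, tA2]
      linear_combination hz' + 2 * W.a₁ * h2t
    exact mul_left_cancel₀ h40 this
  refine ⟨r', t', M', v.map_add_le M.vr hzv.le, ?_, ?_⟩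
  · rw [hA', map_mul, hzv, one_mul, Valuation.map_sub_eq_of_lt_left, hzv]
    rw [hvz₁, hzv]; exact hm
  · have e : (-W.b₂ / 8 - r' / 2) - r = z₁ / 2 := by
      rw [hz₁, hr', hBe]
      field_simp
      ring
    rw [e, map_div₀, h2, div_one, hvz₁]

end gen

local notation "Ω" => AlgebraicClosure ℚ

section

variable {A : ValuationSubring (AlgebraicClosure ℚ)} {p : ℕ} [hp : Fact p.Prime] {W : Affine ℚ}

/-- `2`-torsion points with distinct reduction are fixed by inertia -/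
theorem two_fix (h2 : A.valuation (2 : Ω) = 1) (hI : IsInt A.valuation (W⁄Ω)) {r t : Ω}
    (M : TModel (W⁄Ω) r t) (hr : A.valuation r ≤ 1) (hA' : A.valuation (tA4 (W⁄Ω) r t) = 1)
    {τ : Ω ≃ₐ[ℚ] Ω} (hτ : IsInert A.valuation τ) : τ r = r := by
  have ha1 : τ (W⁄Ω).a₁ = (W⁄Ω).a₁ := AlgEquiv.commutes _ _
  have ha2 : τ (W⁄Ω).a₂ = (W⁄Ω).a₂ := AlgEquiv.commutes _ _
  have ha3 : τ (W⁄Ω).a₃ = (W⁄Ω).a₃ := AlgEquiv.commutes _ _
  have ha4 : τ (W⁄Ω).a₄ = (W⁄Ω).a₄ := AlgEquiv.commutes _ _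
  have ha6 : τ (W⁄Ω).a₆ = (W⁄Ω).a₆ := AlgEquiv.commutes _ _
  have hvz := hτ.sub_lt r hr
  obtain ⟨z, hz⟩ : ∃ z, z = τ r - r := ⟨_, rfl⟩
  rw [← hz] at hvz
  have hE := M.eqn
  rw [equation_iff] at hE
  have h2t := M.two
  have hE' : τ t ^ 2 + (W⁄Ω).a₁ * τ r * τ t + (W⁄Ω).a₃ * τ t = τ r ^ 3 + (W⁄Ω).a₂ * τ r ^ 2 +
      (W⁄Ω).a₄ * τ r + (W⁄Ω).a₆ := by
    have := congrArg τ hE
    simp only [map_add, map_mul, map_pow, ha1, ha2, ha3, ha4, ha6] at this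
    exact this
  have h2' : 2 * τ t + (W⁄Ω).a₁ * τ r + (W⁄Ω).a₃ = 0 := by
    have := congrArg τ h2t
    simp only [map_add, map_mul, ha1, ha3, _root_.map_zero, map_ofNat] at this
    exact this
  have e1 : z * (4 * z ^ 2 + ((W⁄Ω).a₁ ^ 2 + 4 * tA2 (W⁄Ω) r) * z + 4 * tA4 (W⁄Ω) r t) = 0 := by
    have hτr : τ r = r + z := by rw [hz]; ring
    rw [hτr] at hE' h2'
    simp only [tA2, tA4]
    linear_combination (-4) * hE' + 4 * hE + (2 * τ t + (W⁄Ω).a₁ * (r + z) + (W⁄Ω).a₃) * h2' -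
      (2 * t + (W⁄Ω).a₁ * r + (W⁄Ω).a₃) * h2t - 2 * z * (W⁄Ω).a₁ * h2t
  rcases mul_eq_zero.mp e1 with h0 | h0
  · rw [hz, sub_eq_zero] at h0; exact h0
  exfalso
  have h4 : A.valuation (4 : Ω) = 1 := by
    rw [show (4 : Ω) = 2 * 2 by norm_num, _root_.map_mul, h2, one_mul]
  have MM := intT_of hI M hr
  have hn : ∀ n : ℕ, A.valuation (n : Ω) ≤ 1 := nat_le
  have e2 : 4 * tA4 (W⁄Ω) r t = -((4 * z + ((W⁄Ω).a₁ ^ 2 + 4 * tA2 (W⁄Ω) r)) * z) := by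
    linear_combination h0
  have h5 := congrArg A.valuation e2
  rw [_root_.map_mul, h4, one_mul, hA', Valuation.map_neg, _root_.map_mul] at h5
  have h6 : A.valuation (4 * z + ((W⁄Ω).a₁ ^ 2 + 4 * tA2 (W⁄Ω) r)) ≤ 1 := by
    refine A.valuation.map_add_le ?_ (A.valuation.map_add_le ?_ ?_)
    · rw [_root_.map_mul, h4, one_mul]; exact hvz.le
    · rw [map_pow]; exact pow_le_one' MM.va1 2
    · rw [_root_.map_mul, h4, one_mul]; exact MM.vA2
  have h7 := (mul_le_of_le_one_left' h6).trans_lt hvz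
  rw [← h5] at h7
  exact lt_irrefl _ h7

theorem mem_K0_of_inert {x : Ω} (h : ∀ τ : Ω ≃ₐ[ℚ] Ω, IsInert A.valuation τ → τ x = x) :
    x ∈ K0 A := mem_K0_of_fixed A fun σ => h (rs σ) (rs_inert σ)

/-- good approximations -/
theorem exists_approx_mul (hA : A.LiesOverPrime p) {ξ : Ω} (hξ : ξ ≠ 0) {a : ℤ}
    (ha : (rval A p hA).w ξ = a) :
    ∃ b : K0 A, algebraMap (K0 A) Ω b ≠ 0 ∧ (rval A p hA).w (algebraMap (K0 A) Ω b) =
      (rval A p hA).w ξ ∧ (rval A p hA).Gt 0 (ξ / algebraMap (K0 A) Ω b - 1) := by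
  have hp0 : (p : Ω) ≠ 0 := Nat.cast_ne_zero.2 hp.out.ne_zero
  have hpa : (p : Ω) ^ a ≠ 0 := zpow_ne_zero _ hp0
  have hw : (rval A p hA).w (ξ / (p : Ω) ^ a) = 0 := by
    rw [w_div hξ hpa, w_zpow hp0, (rval A p hA).w_p, ha, mul_one, sub_self]
  obtain ⟨c, -, hc⟩ := (rval A p hA).res (ξ / (p : Ω) ^ a) (div_ne_zero hξ hpa) hw.ge
  have hc' : (rval A p hA).Gt ((rval A p hA).w (ξ / (p : Ω) ^ a))
      (algebraMap (K0 A) Ω c - ξ / (p : Ω) ^ a) := by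
    rw [hw, ← neg_sub]
    exact Gt.neg hc
  obtain ⟨hc0, hcw⟩ := w_add_eq' (div_ne_zero hξ hpa) hc'
  have e : algebraMap (K0 A) Ω (c * (p : K0 A) ^ a) = algebraMap (K0 A) Ω c * (p : Ω) ^ a := by
    rw [_root_.map_mul, map_zpow₀, map_natCast]
  refine ⟨c * (p : K0 A) ^ a, ?_, ?_, ?_⟩
  · rw [e]; exact mul_ne_zero hc0 hpa
  · rw [e, w_mul hc0 hpa, hcw, hw, w_zpow hp0, (rval A p hA).w_p, ha]; ring
  · rw [e]
    have e2 : ξ / (algebraMap (K0 A) Ω c * (p : Ω) ^ a) - 1 =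
        (ξ / (p : Ω) ^ a - algebraMap (K0 A) Ω c) * (algebraMap (K0 A) Ω c)⁻¹ := by
      field_simp
    rw [e2]
    have h5 : (rval A p hA).Ge 0 (algebraMap (K0 A) Ω c)⁻¹ := by
      right
      rw [w_inv hc0, hcw, hw, _root_.neg_zero]
    have := Gt.mul (V := rval A p hA) hc h5
    rwa [add_zero] at this

variable [DecidableEq (AlgebraicClosure ℚ)] {r t tp tm : Ω}

/-- Basic data on torsion points, multiplicative reduction. -/
structure PG (hA : A.LiesOverPrime p) (M : MultT A.valuation (W⁄Ω) r t tp tm)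
    (Q0 Q1 : (W⁄Ω).Point) : Prop where
  Q00 : Q0 ≠ 0
  pQ0 : p • Q0 = 0
  Q0E : Q0 ∈ M.toIntT.E1
  pQ1 : p • Q1 = 0
  Q1D : InD A.valuation (W⁄Ω) r t tp Q1
  span0 : ∀ Q, p • Q = 0 → Q ∈ M.toIntT.E0 M.hm → ∃ n : ℤ, Q = n • Q0
  w0 : ∀ Q, Q ≠ 0 → p • Q = 0 → Q ∈ M.toIntT.E1 → (rval A p hA).w (xc Q) = -2 / (p - 1)

theorem exists_PG (hA : A.LiesOverPrime p) (hp2 : p ≠ 2)
    (M : MultT A.valuation (W⁄Ω) r t tp tm)
    (hI : IsInt A.valuation (W⁄Ω)) (hΔ : (W⁄Ω).Δ ≠ 0) {r' t' : Ω} (M' : TModel (W⁄Ω) r' t')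
    (hr' : A.valuation r' ≤ 1) (hA' : A.valuation (tA4 (W⁄Ω) r' t') = 1) :
    ∃ Q0 Q1 : (W⁄Ω).Point, PG hA M Q0 Q1 := by
  obtain ⟨Q0, h00, hp0, h0E, hspan, hval, hv, Q, hpQ, hQE⟩ :=
    exists_formal_line hΔ hI hp.out hp2 (v_p_lt_one hA) M' hr' hA' M.toIntT M.hm
  obtain ⟨Q1, hpQ1, hQ1⟩ : ∃ Q1 : (W⁄Ω).Point, p • Q1 = 0 ∧
      InD A.valuation (W⁄Ω) r t tp Q1 := by
    rcases M.multiples hp.out hp2 hpQ hQE 1 with h | h | h
    · rw [one_nsmul] at h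
      rw [h] at hQE
      exact absurd (zero_mem _) hQE
    · rw [one_nsmul] at h
      exact ⟨Q, hpQ, h⟩
    · rw [one_nsmul] at h
      exact ⟨-Q, nsmul_neg_eq_zero hpQ, M.swap.neg_inD h⟩
  refine ⟨Q0, Q1, h00, hp0, h0E, hpQ1, hQ1, hspan, ?_⟩
  intro Q' hQ0' hpQ' hQE'
  have hx := (mem_E1_iff' M.toIntT hQ0').1 hQE'
  refine w_of_v hA hp2 ?_ (by rw [hval Q' hQ0' hpQ' hQE']; exact hv)
  intro h1
  rw [h1, _root_.map_zero] at hx
  exact absurd hx (not_lt.2 zero_le)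

namespace PG

variable {hA : A.LiesOverPrime p} {M : MultT A.valuation (W⁄Ω) r t tp tm}
  {Q0 Q1 : (W⁄Ω).Point} (D : PG hA M Q0 Q1)
include D

theorem smul_sub (hp2 : p ≠ 2) {τ : Ω ≃ₐ[ℚ] Ω} (hτ : IsInert A.valuation τ)
    (hr : A.valuation (τ r - r) ≤ A.valuation (tA4 (W⁄Ω) r t))
    (ht : A.valuation (τ t - t) ≤ A.valuation (tA4 (W⁄Ω) r t)) {Q : (W⁄Ω).Point}
    (hQ : p • Q = 0) : ∃ n : ℤ, τ • Q - Q = n • Q0 :=
  D.span0 (τ • Q - Q) (nsmul_smul_sub hQ τ)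
    (CL.sub_mem_E0' hτ M hr ht (hp.out.odd_of_ne_two hp2) hQ)

theorem Q1ne : Q1 ≠ 0 := by
  obtain ⟨x, y, h, rfl, -⟩ := D.Q1D
  exact Point.some_ne_zero _

theorem xi_ne : xc Q1 - r ≠ 0 := by
  obtain ⟨x, y, h, rfl, h1, h2, h3⟩ := D.Q1D
  rw [xc_some]
  exact sub_ne_zero.2 (M.ne_of_lt h1)

/-- the key estimate -/
theorem key (hp2 : p ≠ 2) {τ : Ω ≃ₐ[ℚ] Ω} (hτ : IsInert A.valuation τ)
    (hr : A.valuation (τ r - r) ≤ A.valuation (tA4 (W⁄Ω) r t))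
    (ht : A.valuation (τ t - t) ≤ A.valuation (tA4 (W⁄Ω) r t)) (hne : τ • Q1 ≠ Q1) :
    τ (xc Q1) - xc Q1 ≠ 0 ∧ (rval A p hA).w (τ (xc Q1) - xc Q1) =
      (rval A p hA).w (xc Q1 - r) + 1 / (p - 1) := by
  have hξ := D.xi_ne
  obtain ⟨n, hn⟩ := D.smul_sub hp2 hτ hr ht D.pQ1
  have hE1 : τ • Q1 - Q1 ∈ M.toIntT.E1 := by rw [hn]; exact zsmul_mem D.Q0E n
  have hw3 := D.w0 _ (sub_ne_zero.2 hne) (nsmul_smul_sub D.pQ1 τ) hE1
  have hv3 := (mem_E1_iff' M.toIntT (sub_ne_zero.2 hne)).1 hE1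
  obtain ⟨x, y, h, rfl, h1, h2, h3⟩ := D.Q1D
  have DQ := D.Q1D
  obtain ⟨hτx, DT⟩ := CL.inD' hτ M hr ht DQ
  have Dn := M.neg_inD DQ
  rw [xc_some] at hξ ⊢
  have hxr : x ≠ r := M.ne_of_lt h1
  have hτxr : τ x ≠ r := by
    apply M.ne_of_lt
    rw [hτx]; exact h1
  have hτn := nonsingular_map τ h
  have hnn := (nonsingular_neg (W' := W⁄Ω) x y).mpr h
  have hx : τ x ≠ x := by
    intro hx
    rcases Y_eq_of_X_eq hτn.1 h.1 hx with h4 | h4
    · apply hne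
      rw [smul_some, Point.some.injEq]
      exact ⟨hx, h4⟩
    · have e : (Point.some (τ x) (τ y) hτn : (W⁄Ω).Point) = - Point.some x y h := by
        rw [Point.neg_some, Point.some.injEq]
        exact ⟨hx, h4⟩
      rw [e] at DT
      exact M.not_both DT Dn
  refine ⟨sub_ne_zero.2 hx, ?_⟩
  rw [sub_eq_add_neg, smul_some, Point.neg_some, Point.add_some (fun hh => hx hh.1), xc_some]
    at hw3 hv3
  have hB := M.toIntT.toTModel.sumB hτn.1 hnn.1 hτxr hxr hx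
  set x3 := (W⁄Ω).addX (τ x) x ((W⁄Ω).slope (τ x) x (τ y) ((W⁄Ω).negY x y)) with hx3
  -- slopes
  have hs : A.valuation (sl r t (τ x) (τ y) - sl r t x ((W⁄Ω).negY x y)) = 1 := by
    obtain ⟨x', y', h', he', a1, a2, a3⟩ := DT
    rw [Point.some.injEq] at he'
    obtain ⟨rfl, rfl⟩ := he'
    rw [Point.neg_some] at Dn
    obtain ⟨x', y', h', he', b1, b2, b3⟩ := Dn
    rw [Point.some.injEq] at he'
    obtain ⟨rfl, rfl⟩ := he'
    have e : sl r t (τ x) (τ y) - sl r t x ((W⁄Ω).negY x y) =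
        ((sl r t (τ x) (τ y) - tp) - (sl r t x ((W⁄Ω).negY x y) - tm)) + (tp - tm) := by ring
    rw [e, Valuation.map_add_eq_of_lt_right, M.hdiff]
    rw [M.hdiff]
    exact A.valuation.map_sub_lt a3 b3
  have hx30 : x3 - r ≠ 0 := by
    intro h0
    rw [sub_eq_zero] at h0
    rw [h0] at hv3
    exact absurd hv3 (not_lt.2 M.toIntT.vr)
  have hv3' : A.valuation (x3 - r) = A.valuation x3 :=
    Valuation.map_sub_eq_of_lt_left _ (M.toIntT.vr.trans_lt hv3)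
  have hx30' : x3 ≠ 0 := by
    intro h0
    rw [h0, _root_.map_zero] at hv3
    exact absurd hv3 (not_lt.2 zero_le)
  have hBv := congrArg A.valuation hB
  rw [map_mul, map_mul, map_pow, map_pow, hs, one_pow, mul_one, map_mul, hτx, hv3', ← sq,
    ← map_pow, ← map_pow, ← map_mul,
    v_eq_iff hA (mul_ne_zero hx30' (pow_ne_zero _ (sub_ne_zero.2 hx))) (pow_ne_zero _ hξ),
    w_mul hx30' (pow_ne_zero _ (sub_ne_zero.2 hx)), w_pow (sub_ne_zero.2 hx), w_pow hξ, hw3] at hBv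
  push_cast at hBv
  have e4 : (-2 : ℚ) / (p - 1) = -2 * (1 / (p - 1)) := by ring
  rw [e4] at hBv
  linarith

/-- the valuation of `ξ` is an integer -/
theorem xi_int (hp2 : p ≠ 2) {m : ℤ}
    (h4 : 2 * (rval A p hA).w (tA4 (W⁄Ω) r t) = p * m) :
    ∃ a : ℤ, (rval A p hA).w (xc Q1 - r) = a := by
  have hξ := D.xi_ne
  obtain ⟨x, y, h, rfl, h1, h2, h3⟩ := D.Q1D
  rw [xc_some] at hξ ⊢
  obtain ⟨k, hk⟩ := M.class_prime hp.out hp2 D.pQ1 D.Q1D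
  have hp0 : (p : ℚ) ≠ 0 := by exact_mod_cast hp.out.ne_zero
  rw [← map_pow, ← map_pow, ← map_zpow₀, v_eq_iff hA (pow_ne_zero _ hξ)
    (zpow_ne_zero _ (pow_ne_zero _ M.hm0)), w_pow hξ, w_zpow (pow_ne_zero _ M.hm0),
    w_pow M.hm0] at hk
  refine ⟨k * m, ?_⟩
  apply mul_left_cancel₀ hp0
  rw [hk]
  push_cast
  rw [h4]
  ring

end PG

/-- local data, multiplicative reduction, `p ∣ v(Δ)` -/
theorem mult_LD (hA : A.LiesOverPrime p) (hp2 : p ≠ 2) (hM : CL.IsMult A.valuation (W⁄Ω)) {m : ℤ}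
    (hm : (rval A p hA).w (W⁄Ω).Δ = p * m) :
    ∃ (Q0 Q1 : (W⁄Ω).Point) (z u : Ω), LD hA Q0 Q1 z u := by
  have hI := hM.int
  have hΔ0 := hM.Δ0
  have h2 := v_two hA hp2
  obtain ⟨r, t, M, hm1, hm0, hB, hr⟩ := hM.exists_pt
  obtain ⟨tp, tm, MM⟩ := exists_MultT M hm1 hm0 hB
  obtain ⟨r', t', M', hr', hA', hx0⟩ := exists_far h2 M hm1 hB
  -- the centre
  obtain ⟨x0, hx0d⟩ : ∃ x0, x0 = -(W⁄Ω).b₂ / 8 - r' / 2 := ⟨_, rfl⟩
  rw [← hx0d] at hx0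
  have hx0K : x0 ∈ K0 A := by
    refine mem_K0_of_inert fun τ hτ => ?_
    have e : (W⁄Ω).b₂ = algebraMap ℚ Ω W.b₂ := WeierstrassCurve.map_b₂ W (algebraMap ℚ Ω)
    rw [hx0d, e]
    simp only [map_sub, map_div₀, _root_.map_neg, map_ofNat, AlgEquiv.commutes]
    rw [two_fix h2 hI M' hr' hA' hτ]
  -- the valuation of `Δ`
  have h4 : 2 * (rval A p hA).w (tA4 (W⁄Ω) r t) = p * m := by
    rw [← hm]
    have e1 := Δ_eq_tA4 M.toTModel
    obtain ⟨c, hc⟩ : ∃ c, c = ((W⁄Ω).a₁ ^ 2 + 4 * tA2 (W⁄Ω) r) ^ 2 - 64 * tA4 (W⁄Ω) r t :=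
      ⟨_, rfl⟩
    have hvc : A.valuation c = 1 := by
      rw [hc, Valuation.map_sub_eq_of_lt_left, map_pow, hB, one_pow]
      rw [map_pow, hB, one_pow]
      have := hM.val_mul_nat 64 (tA4 (W⁄Ω) r t)
      push_cast at this
      exact this.trans_lt hm1
    have hc0 : c ≠ 0 := by
      intro h0
      rw [h0, _root_.map_zero] at hvc
      exact zero_ne_one hvc
    rw [← hc] at e1
    rw [← _root_.map_one A.valuation, v_eq_iff hA hc0 one_ne_zero, w_one] at hvc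
    rw [e1, w_mul (pow_ne_zero 2 hm0) hc0, w_pow hm0, hvc, add_zero]
    push_cast
    ring
  obtain ⟨Q0, Q1, D⟩ := exists_PG hA hp2 MM hI hΔ0 M' hr' hA'
  have hnear : ∀ τ : Ω ≃ₐ[K0 A] Ω, A.valuation (rs τ r - r) ≤ A.valuation (tA4 (W⁄Ω) r t) ∧
      A.valuation (rs τ t - t) ≤ A.valuation (tA4 (W⁄Ω) r t) := fun τ =>
    hM.near (rs_inert τ) M hB hr
  have hsub : ∀ τ : Ω ≃ₐ[K0 A] Ω, ∀ Q : (W⁄Ω).Point, p • Q = 0 →
      ∃ n : ℤ, rs τ • Q - Q = n • Q0 := fun τ Q hQ =>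
    D.smul_sub hp2 (rs_inert τ) (hnear τ).1 (hnear τ).2 hQ
  obtain ⟨z, hzM, hz0, hwz⟩ := exists_z hA hI D.Q00 ((mem_E1_iff' M D.Q00).1 D.Q0E)
    (D.w0 Q0 D.Q00 D.pQ0 D.Q0E)
  -- `ξ`
  have hξr := D.xi_ne
  have hvξ : A.valuation (xc Q1 - x0) = A.valuation (xc Q1 - r) := by
    obtain ⟨x, y, h, rfl, a1, a2, a3⟩ := D.Q1D
    rw [xc_some]
    have e : x - x0 = (x - r) - (x0 - r) := by ring
    rw [e]
    refine Valuation.map_sub_eq_of_lt_left _ ?_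
    rw [hx0]; exact a1
  have hξ : xc Q1 - x0 ≠ 0 := by
    intro h0
    rw [h0, _root_.map_zero] at hvξ
    exact hξr ((Valuation.zero_iff _).1 hvξ.symm)
  have hwξ : (rval A p hA).w (xc Q1 - x0) = (rval A p hA).w (xc Q1 - r) :=
    (v_eq_iff hA hξ hξr).1 hvξ
  obtain ⟨a, ha⟩ := D.xi_int hp2 h4
  obtain ⟨b, hb0, hbw, hb⟩ := exists_approx_mul hA hξ (hwξ.trans ha)
  have hQ1E : Q1 ∉ M.E1 := fun h => MM.inD_not_mem_E0 D.Q1D (M.E1_le_E0 hm1 h)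
  have hτu : ∀ τ : Ω ≃ₐ[K0 A] Ω, τ ((xc Q1 - x0) / algebraMap (K0 A) Ω b - 1) -
      ((xc Q1 - x0) / algebraMap (K0 A) Ω b - 1) =
      (rs τ (xc Q1) - xc Q1) / algebraMap (K0 A) Ω b := by
    intro τ
    have hτ0 : τ x0 = x0 := τ.commutes ⟨x0, hx0K⟩
    rw [map_sub, map_div₀, τ.commutes, map_sub, _root_.map_one, hτ0, rs_apply]
    ring
  refine ⟨Q0, Q1, z, (xc Q1 - x0) / algebraMap (K0 A) Ω b - 1,
    { Q00 := D.Q00
      pQ0 := D.pQ0
      pQ1 := D.pQ1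
      span := fun Q hQ => span_torsion hΔ0 hp.out hp2 D.Q00 D.pQ0 D.pQ1 (fun n hn => hQ1E (by
        rw [hn]; exact zsmul_mem D.Q0E n)) Q hQ
      sQ0 := fun τ => ?_
      sub := hsub
      zM := hzM
      z0 := hz0
      wz := hwz
      uL := ?_
      hu := hb
      fix := fun τ hτ => ?_
      move := fun τ hτ => ?_ }⟩
  · obtain ⟨n, hn⟩ := hsub τ Q0 D.pQ0
    refine ⟨n + 1, ?_⟩
    rw [add_zsmul, one_zsmul, ← hn, sub_add_cancel]
  · have hx0L : x0 ∈ FD A {Q : (W⁄Ω).Point | p • Q = 0} := by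
      have : x0 = algebraMap (K0 A) Ω ⟨x0, hx0K⟩ := rfl
      rw [this]
      exact IntermediateField.algebraMap_mem _ _
    exact sub_mem (div_mem (sub_mem (xc_mem_FD D.pQ1) hx0L)
      (IntermediateField.algebraMap_mem _ _)) (one_mem _)
  · rw [← sub_eq_zero, hτu, (smul_eq_iff.1 hτ).1, sub_self, zero_div]
  · obtain ⟨h5, h6⟩ := D.key hp2 (rs_inert τ) (hnear τ).1 (hnear τ).2 hτ
    rw [hτu]
    refine ⟨div_ne_zero h5 hb0, ?_⟩
    rw [w_div h5 hb0, h6, hbw, hwξ]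
    ring

end

end Fermat.Agent.PRG
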