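import Fermat.Agent.PRG.Pts

/-!
# The local input at `p`: good ordinary reduction
-/

set_option autoImplicit false
set_option linter.unusedSectionVars false
set_option linter.style.haveILetI false

noncomputable section

namespace Fermat.Agent.PRG

open WeierstrassCurve WeierstrassCurve.Affine WeierstrassCurve.Affine.Point
open IntermediateField Module Fermat.Agent.FlatRam Fermat.Agent.FlatRam.RVal Fermat.Agent.Flat
open Fermat.Agent.EC Fermat.Agent.PRem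

local notation "Ω" => AlgebraicClosure ℚ

section

variable {A : ValuationSubring (AlgebraicClosure ℚ)} {p : ℕ} [hp : Fact p.Prime]
  [DecidableEq (AlgebraicClosure ℚ)] {W : Affine ℚ}

/-- inertia: differences lie in the kernel of reduction -/
theorem ord_sub_mem (hI : IsInt A.valuation (W⁄Ω)) (hΔ : A.valuation (W⁄Ω).Δ = 1) {r t : Ω}
    (M : IntT A.valuation (W⁄Ω) r t) {τ : Ω ≃ₐ[ℚ] Ω} (hτ : IsInert A.valuation τ)
    (Q : (W⁄Ω).Point) : τ • Q - Q ∈ M.E1 := by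
  rcases Q with _ | ⟨x, y, h⟩
  · have h0 : τ • (0 : (W⁄Ω).Point) = 0 := smul_zero (A := (W⁄Ω).Point) τ
    change τ • (0 : (W⁄Ω).Point) - 0 ∈ _
    rw [h0, sub_zero]; exact zero_mem _
  rcases le_or_gt (A.valuation x) 1 with hx | hx
  · have hy := hI.y_integral h.1 hx
    rcases hI.sub_reduces hΔ h (nonsingular_map τ h) hx (hτ.sub_lt x hx) (hτ.sub_lt y hy) with
      h0 | ⟨x', y', h', he, hx'⟩
    · rw [smul_some, h0]; exact zero_mem _
    · rw [smul_some, he, M.mem_E1_some' h']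
      exact hx'
  · refine sub_mem ?_ ((M.mem_E1_some' h).2 hx)
    rw [smul_some, M.mem_E1_some' (nonsingular_map τ h), hτ.map_eq]
    exact hx

/-- a torsion point of odd order outside the kernel of reduction does not reduce to a point of
order two -/
theorem ord_unit (hp2 : p ≠ 2) (hI : IsInt A.valuation (W⁄Ω)) (hΔ : A.valuation (W⁄Ω).Δ = 1)
    {r t : Ω} (M : IntT A.valuation (W⁄Ω) r t) {x y : Ω} {h : (W⁄Ω).Nonsingular x y}
    (hx : A.valuation x ≤ 1) (hP : p • (Point.some x y h : (W⁄Ω).Point) = 0) :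
    A.valuation (2 * y + (W⁄Ω).a₁ * x + (W⁄Ω).a₃) = 1 := by
  have hy := hI.y_integral h.1 hx
  have hn : ∀ n : ℕ, A.valuation (n : Ω) ≤ 1 := nat_le
  have hle : A.valuation (2 * y + (W⁄Ω).a₁ * x + (W⁄Ω).a₃) ≤ 1 := by
    refine A.valuation.map_add_le (A.valuation.map_add_le ?_ ?_) hI.a₃
    · rw [_root_.map_mul]; exact mul_le_one' (by exact_mod_cast hn 2) hy
    · rw [_root_.map_mul]; exact mul_le_one' hI.a₁ hx
  by_contra hne
  have hlt := lt_of_le_of_ne hle hne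
  have hnn := (nonsingular_neg (W' := W⁄Ω) x y).mpr h
  have hE1 : (2 : ℕ) • (Point.some x y h : (W⁄Ω).Point) ∈ M.E1 := by
    have e : (2 : ℕ) • (Point.some x y h : (W⁄Ω).Point) =
        Point.some x y h - Point.some x ((W⁄Ω).negY x y) hnn := by
      rw [← Point.neg_some h, sub_neg_eq_add, two_nsmul]
    rw [e]
    rcases hI.sub_reduces hΔ hnn h hx (by rw [sub_self, _root_.map_zero]; exact zero_lt_one)
      (by
        rw [show y - (W⁄Ω).negY x y = 2 * y + (W⁄Ω).a₁ * x + (W⁄Ω).a₃ by rw [negY]; ring]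
        exact hlt) with h0 | ⟨x', y', h', he, hx'⟩
    · rw [h0]; exact zero_mem _
    · rw [he, M.mem_E1_some' h']
      exact hx'
  have := mem_of_coprime_nsmul_mem M.E1 hP
    (hp.out.odd_of_ne_two hp2).coprime_two_left hE1
  rw [M.mem_E1_some' h] at this
  exact absurd this (not_lt.2 hx)

/-- the key estimate, good reduction -/
theorem ord_key (hA : A.LiesOverPrime p) (hp2 : p ≠ 2) (hI : IsInt A.valuation (W⁄Ω))
    (hΔ : A.valuation (W⁄Ω).Δ = 1) {r t : Ω} (M : IntT A.valuation (W⁄Ω) r t) {x y : Ω}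
    {h : (W⁄Ω).Nonsingular x y} (hx : A.valuation x ≤ 1)
    (hP : p • (Point.some x y h : (W⁄Ω).Point) = 0)
    (hw0 : ∀ Q : (W⁄Ω).Point, Q ≠ 0 → p • Q = 0 → Q ∈ M.E1 →
      (rval A p hA).w (xc Q) = -2 / (p - 1)) {τ : Ω ≃ₐ[ℚ] Ω} (hτ : IsInert A.valuation τ)
    (hne : τ • (Point.some x y h : (W⁄Ω).Point) ≠ Point.some x y h) :
    τ x - x ≠ 0 ∧ (rval A p hA).w (τ x - x) = 1 / (p - 1) := by
  have hy := hI.y_integral h.1 hx
  have hu := ord_unit hp2 hI hΔ M hx hP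
  have hE1 := ord_sub_mem hI hΔ M hτ (Point.some x y h)
  have hw3 := hw0 _ (sub_ne_zero.2 hne) (nsmul_smul_sub hP τ) hE1
  have hv3 := (mem_E1_iff' M (sub_ne_zero.2 hne)).1 hE1
  have hτn := nonsingular_map τ h
  have hyu : A.valuation (τ y - (W⁄Ω).negY x y) = 1 := by
    have e : τ y - (W⁄Ω).negY x y = (2 * y + (W⁄Ω).a₁ * x + (W⁄Ω).a₃) + (τ y - y) := by
      rw [negY]; ring
    rw [e, Valuation.map_add_eq_of_lt_left, hu]
    rw [hu]
    exact hτ.sub_lt y hy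
  have hxne : τ x ≠ x := by
    intro hxe
    rcases Y_eq_of_X_eq hτn.1 h.1 hxe with h4 | h4
    · apply hne
      rw [smul_some, Point.some.injEq]
      exact ⟨hxe, h4⟩
    · rw [h4, sub_self, _root_.map_zero] at hyu
      exact zero_ne_one hyu
  have hxs : τ x - x ≠ 0 := sub_ne_zero.2 hxne
  refine ⟨hxs, ?_⟩
  rw [sub_eq_add_neg, smul_some, Point.neg_some, Point.add_some (fun hh => hxne hh.1), xc_some]
    at hw3 hv3
  rw [slope_of_X_ne hxne] at hw3 hv3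
  obtain ⟨l, hl⟩ : ∃ l, l = (τ y - (W⁄Ω).negY x y) / (τ x - x) := ⟨_, rfl⟩
  rw [← hl] at hw3 hv3
  have hyne : τ y - (W⁄Ω).negY x y ≠ 0 := by
    intro h0
    rw [h0, _root_.map_zero] at hyu
    exact zero_ne_one hyu
  have hl0 : l ≠ 0 := by rw [hl]; exact div_ne_zero hyne hxs
  have hl1 : 1 < A.valuation l := by
    rw [hl, map_div₀, hyu, one_div]
    exact (one_lt_inv₀ (A.valuation.pos_iff.mpr hxs)).mpr (hτ.sub_lt x hx)
  have hvl : A.valuation ((W⁄Ω).addX (τ x) x l) = A.valuation (l ^ 2) := by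
    rw [addX]
    have e : l ^ 2 + (W⁄Ω).a₁ * l - (W⁄Ω).a₂ - τ x - x =
      l ^ 2 + ((W⁄Ω).a₁ * l - (W⁄Ω).a₂ - τ x - x) := by ring
    rw [e, Valuation.map_add_eq_of_lt_left]
    have hτx : A.valuation (τ x) ≤ 1 := by rw [hτ.map_eq]; exact hx
    have h1 : A.valuation ((W⁄Ω).a₁ * l - (W⁄Ω).a₂ - τ x - x) ≤ A.valuation l := by
      refine A.valuation.map_sub_le (A.valuation.map_sub_le (A.valuation.map_sub_le ?_
        (hI.a₂.trans hl1.le)) (hτx.trans hl1.le)) (hx.trans hl1.le)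
      rw [_root_.map_mul]
      exact mul_le_of_le_one_left' hI.a₁
    refine h1.trans_lt ?_
    rw [map_pow, sq]
    exact lt_mul_of_one_lt_left (zero_lt_one.trans hl1) hl1
  have hx30 : (W⁄Ω).addX (τ x) x l ≠ 0 := by
    intro h0
    rw [h0, _root_.map_zero] at hv3
    exact absurd hv3 (not_lt.2 zero_le)
  rw [v_eq_iff hA hx30 (pow_ne_zero 2 hl0), w_pow hl0, hw3] at hvl
  have hwy : (rval A p hA).w (τ y - (W⁄Ω).negY x y) = 0 := by
    rw [← _root_.map_one A.valuation, v_eq_iff hA hyne one_ne_zero, w_one] at hyu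
    exact hyu
  have hwl : (rval A p hA).w l = - (rval A p hA).w (τ x - x) := by
    rw [hl, w_div hyne hxs, hwy, zero_sub]
  rw [hwl] at hvl
  push_cast at hvl
  have e4 : (-2 : ℚ) / (p - 1) = -2 * (1 / (p - 1)) := by ring
  rw [e4] at hvl
  linarith

theorem exists_approx (hA : A.LiesOverPrime p) {x : Ω} (hx : A.valuation x ≤ 1) :
    ∃ c : K0 A, (rval A p hA).Gt 0 (x - algebraMap (K0 A) Ω c) := by
  by_cases hx0 : x = 0
  · refine ⟨0, ?_⟩
    rw [_root_.map_zero, sub_zero, hx0]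
    exact gt_zero _
  · have h1 : (rval A p hA).Ge 0 x := (rval_ge_zero_iff hA).2 ((A.valuation_le_one_iff x).1 hx)
    rcases h1 with h1 | h1
    · exact absurd h1 hx0
    obtain ⟨c, -, hc⟩ := (rval A p hA).res x hx0 h1
    exact ⟨c, hc⟩

/-- local data, good ordinary reduction -/
theorem ord_LD (hA : A.LiesOverPrime p) (hp2 : p ≠ 2) (hI : IsInt A.valuation (W⁄Ω))
    (hΔ : A.valuation (W⁄Ω).Δ = 1) {Q1 : (W⁄Ω).Point} (hQ1 : Q1 ≠ 0) (hpQ1 : p • Q1 = 0)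
    (hx1 : A.valuation (xc Q1) ≤ 1) : ∃ (Q0 : (W⁄Ω).Point) (z u : Ω), LD hA Q0 Q1 z u := by
  obtain ⟨r, t, M, hA4⟩ := exists_good_T hI (v_two hA hp2) hΔ
  have hΔ0 : (W⁄Ω).Δ ≠ 0 := by
    intro h0
    rw [h0, _root_.map_zero] at hΔ
    exact zero_ne_one hΔ
  have hQ1E : Q1 ∉ M.E1 := by
    rw [mem_E1_iff' M hQ1]
    exact not_lt.2 hx1
  obtain ⟨Q0, hQ0, hpQ0, hQ0E, hspan, hval, hv⟩ := exists_formal_line2 hΔ0 hI hp.out hp2
    (v_p_lt_one hA) M.toTModel M.vr hA4 M hpQ1 hQ1E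
  have hw0 : ∀ Q : (W⁄Ω).Point, Q ≠ 0 → p • Q = 0 → Q ∈ M.E1 →
      (rval A p hA).w (xc Q) = -2 / (p - 1) := by
    intro Q h0 hpQ hQ
    have hx := (mem_E1_iff' M h0).1 hQ
    refine w_of_v hA hp2 ?_ (by rw [hval Q h0 hpQ hQ]; exact hv)
    intro h1
    rw [h1, _root_.map_zero] at hx
    exact absurd hx (not_lt.2 zero_le)
  obtain ⟨z, hzM, hz0, hwz⟩ := exists_z hA hI hQ0 ((mem_E1_iff' M hQ0).1 hQ0E)
    (hw0 Q0 hQ0 hpQ0 hQ0E)
  obtain ⟨c, hc⟩ := exists_approx hA hx1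
  have hsub : ∀ τ : Ω ≃ₐ[K0 A] Ω, ∀ Q : (W⁄Ω).Point, p • Q = 0 →
      ∃ n : ℤ, rs τ • Q - Q = n • Q0 := fun τ Q hQ =>
    hspan _ (nsmul_smul_sub hQ _) (ord_sub_mem hI hΔ M (rs_inert τ) Q)
  refine ⟨Q0, z, xc Q1 - algebraMap (K0 A) Ω c,
    { Q00 := hQ0
      pQ0 := hpQ0
      pQ1 := hpQ1
      span := fun Q hQ => span_torsion hΔ0 hp.out hp2 hQ0 hpQ0 hpQ1 (fun n hn => hQ1E (by
        rw [hn]; exact zsmul_mem hQ0E n)) Q hQ
      sQ0 := fun τ => ?_
      sub := hsub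
      zM := hzM
      z0 := hz0
      wz := hwz
      uL := sub_mem (xc_mem_FD hpQ1) (IntermediateField.algebraMap_mem _ _)
      hu := hc
      fix := fun τ hτ => ?_
      move := fun τ hτ => ?_ }⟩
  · obtain ⟨n, hn⟩ := hsub τ Q0 hpQ0
    refine ⟨n + 1, ?_⟩
    rw [add_zsmul, one_zsmul, ← hn, sub_add_cancel]
  · rw [map_sub, τ.commutes]
    congr 1
    exact (smul_eq_iff.1 hτ).1
  · have e : τ (xc Q1 - algebraMap (K0 A) Ω c) - (xc Q1 - algebraMap (K0 A) Ω c) =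
        rs τ (xc Q1) - xc Q1 := by
      rw [map_sub, τ.commutes, rs_apply]; ring
    rw [e]
    rcases Q1 with _ | ⟨x, y, h⟩
    · exact absurd rfl hQ1
    exact ord_key hA hp2 hI hΔ M hx1 hpQ1 hw0 (rs_inert τ) hτ

end

end Fermat.Agent.PRG
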