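import Fermat.Agent.PRG.LD

/-!
# Torsion points in the kernel of reduction
-/

set_option autoImplicit false
set_option linter.unusedSectionVars false
set_option linter.style.haveILetI false

noncomputable section

namespace Fermat.Agent.PRG

open WeierstrassCurve WeierstrassCurve.Affine WeierstrassCurve.Affine.Point
open IntermediateField Module Fermat.Agent.FlatRam Fermat.Agent.FlatRam.RVal Fermat.Agent.Flat
open Fermat.Agent.EC Fermat.Agent.PRem

section gen

variable {K : Type*} [Field K] {Γ₀ : Type*} [LinearOrderedCommGroupWithZero Γ₀]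
  {v : Valuation K Γ₀} {W : WeierstrassCurve K}

theorem Δ_eq_tA4 {r t : K} (M : TModel W r t) :
    W.Δ = tA4 W r t ^ 2 * ((W.a₁ ^ 2 + 4 * tA2 W r) ^ 2 - 64 * tA4 W r t) := by
  have h2t := M.two
  have hE' := M.eqn
  rw [equation_iff] at hE'
  have e3 : W.a₃ = -(2 * t + W.a₁ * r) := by linear_combination h2t
  have e6 : W.a₆ = t ^ 2 + W.a₁ * r * t + W.a₃ * t - (r ^ 3 + W.a₂ * r ^ 2 + W.a₄ * r) := by
    linear_combination (-1) * hE'
  rw [e3] at e6
  simp only [tA4, tA2, WeierstrassCurve.Δ, WeierstrassCurve.b₂, WeierstrassCurve.b₄,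
    WeierstrassCurve.b₆, WeierstrassCurve.b₈]
  rw [e3, e6]
  ring

theorem nat_le (n : ℕ) : v (n : K) ≤ 1 := by
  have : (n : K) ∈ v.integer := natCast_mem _ n
  exact this

/-- an integral `2`-torsion point -/
theorem intT_of (hI : IsInt v W) {r t : K} (M : TModel W r t) (hr : v r ≤ 1) : IntT v W r t := by
  have hn : ∀ n : ℕ, v (n : K) ≤ 1 := nat_le
  have ht : v t ≤ 1 := hI.y_integral M.eqn hr
  refine ⟨M, hI.a₁, ?_, ?_, hr⟩
  · rw [tA2]
    refine v.map_add_le hI.a₂ ?_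
    rw [map_mul]; exact mul_le_one' (by exact_mod_cast hn 3) hr
  · rw [tA4]
    refine v.map_sub_le (v.map_add_le (v.map_add_le ?_ ?_) hI.a₄) ?_
    · rw [map_mul, map_pow]
      exact mul_le_one' (by exact_mod_cast hn 3) (pow_le_one' hr 2)
    · rw [map_mul, map_mul]
      exact mul_le_one' (mul_le_one' (by exact_mod_cast hn 2) hI.a₂) hr
    · rw [map_mul]; exact mul_le_one' hI.a₁ ht

/-- good reduction, odd residue characteristic: there is an integral `2`-torsion point with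
nonsingular reduction -/
theorem exists_good_T [IsAlgClosed K] [CharZero K] (hI : IsInt v W) (h2 : v (2 : K) = 1)
    (hΔ : v W.Δ = 1) : ∃ r t : K, IntT v W r t ∧ v (tA4 W r t) = 1 := by
  have hn : ∀ n : ℕ, v (n : K) ≤ 1 := nat_le
  have hdeg : (Polynomial.C (4 : K) * Polynomial.X ^ 3 + Polynomial.C W.b₂ * Polynomial.X ^ 2 +
      Polynomial.C (2 * W.b₄) * Polynomial.X + Polynomial.C W.b₆).degree ≠ 0 := by
    rw [Polynomial.degree_cubic (by norm_num)]; decide
  obtain ⟨r, hr⟩ := IsAlgClosed.exists_root _ hdeg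
  have hr2 := hr
  simp only [Polynomial.IsRoot.def, Polynomial.eval_add, Polynomial.eval_mul, Polynomial.eval_pow,
    Polynomial.eval_X, Polynomial.eval_C] at hr
  set t : K := -(W.a₁ * r + W.a₃) / 2 with ht
  have h2t : 2 * t = -(W.a₁ * r + W.a₃) := by rw [ht]; field_simp
  have hE : W.toAffine.Equation r t := by
    rw [equation_iff]
    have h4 : (4 : K) ≠ 0 := by norm_num
    refine mul_left_cancel₀ h4 ?_
    simp only [WeierstrassCurve.b₂, WeierstrassCurve.b₄, WeierstrassCurve.b₆] at hr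
    linear_combination (2 * t + (W.a₁ * r + W.a₃)) * h2t - hr
  have hvr : v r ≤ 1 := by
    refine val_le_one_of_root (d := 3) ?_ ?_ ?_ hr2
    · intro i
      have hb2 := CL.b₂_le hI hn
      have hb4 := CL.b₄_le hI hn
      have hb6 := CL.b₆_le hI hn
      have h4 : v (4 : K) ≤ 1 := by exact_mod_cast hn 4
      have h2' : v (2 * W.b₄) ≤ 1 := by rw [map_mul, h2, one_mul]; exact hb4
      have key : ∀ (a : K) (m : ℕ), v a ≤ 1 →
          v ((Polynomial.C a * Polynomial.X ^ m).coeff i) ≤ 1 := by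
        intro a m ha
        rw [Polynomial.coeff_C_mul_X_pow]
        split_ifs
        · exact ha
        · rw [_root_.map_zero]; exact zero_le_one
      rw [Polynomial.coeff_add, Polynomial.coeff_add, Polynomial.coeff_add]
      refine v.map_add_le (v.map_add_le (v.map_add_le (key _ _ h4) (key _ _ hb2)) ?_) ?_
      · have := key (2 * W.b₄) 1 h2'
        rwa [pow_one] at this
      · have := key W.b₆ 0 hb6
        rwa [pow_zero, mul_one] at this
    · rw [Polynomial.natDegree_cubic (by norm_num)]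
    · rw [Polynomial.coeff_add, Polynomial.coeff_add, Polynomial.coeff_add,
        Polynomial.coeff_C_mul_X_pow, Polynomial.coeff_C_mul_X_pow, Polynomial.coeff_C_mul_X,
        Polynomial.coeff_C]
      norm_num
      rw [show (4 : K) = 2 * 2 by norm_num, map_mul, h2, one_mul]
  have M : TModel W r t := ⟨hE, by rw [h2t]; ring⟩
  have MM := intT_of hI M hvr
  refine ⟨r, t, MM, ?_⟩
  have h1 := congrArg v (Δ_eq_tA4 M)
  rw [hΔ, map_mul, map_pow] at h1
  have h5 : v ((W.a₁ ^ 2 + 4 * tA2 W r) ^ 2 - 64 * tA4 W r t) ≤ 1 := by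
    refine v.map_sub_le ?_ ?_
    · rw [map_pow]
      refine pow_le_one' (v.map_add_le ?_ ?_) 2
      · rw [map_pow]; exact pow_le_one' MM.va1 2
      · rw [map_mul]; exact mul_le_one' (by exact_mod_cast hn 4) MM.vA2
    · rw [map_mul]; exact mul_le_one' (by exact_mod_cast hn 64) MM.vA4
  by_contra hne
  have hlt : v (tA4 W r t) < 1 := lt_of_le_of_ne MM.vA4 hne
  have h6 : v (tA4 W r t) ^ 2 < 1 := pow_lt_one₀ zero_le hlt two_ne_zero
  have h7 : v (tA4 W r t) ^ 2 * v ((W.a₁ ^ 2 + 4 * tA2 W r) ^ 2 - 64 * tA4 W r t) < 1 :=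
    (mul_le_of_le_one_right' h5).trans_lt h6
  rw [← h1] at h7
  exact lt_irrefl _ h7

variable [DecidableEq K]

/-- **The line of `p`-torsion points in the kernel of reduction.** -/
theorem exists_formal_line2 [IsAlgClosed K] [CharZero K] (hΔ : W.Δ ≠ 0) (hI : IsInt v W) {p : ℕ}
    (hp : p.Prime) (hp2 : p ≠ 2) (hvp : v (p : K) < 1) {r' t' : K} (M' : TModel W r' t')
    (hr' : v r' ≤ 1) (hA' : v (tA4 W r' t') = 1) {r t : K} (M : IntT v W r t)
    {Q1 : W.toAffine.Point} (hpQ1 : p • Q1 = 0) (hQ1 : Q1 ∉ M.E1) :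
    ∃ Q0 : W.toAffine.Point, Q0 ≠ 0 ∧ p • Q0 = 0 ∧ Q0 ∈ M.E1 ∧
      (∀ Q, p • Q = 0 → Q ∈ M.E1 → ∃ n : ℤ, Q = n • Q0) ∧
      (∀ Q, Q ≠ 0 → p • Q = 0 → Q ∈ M.E1 → v (xc Q) = v (xc Q0)) ∧
      v (p : K) * v (xc Q0) ^ ((p - 1) / 2) = 1 := by
  classical
  have hodd : Odd p := hp.odd_of_ne_two hp2
  have hprod := formal_prod hΔ hI hodd M' hr' hA'
  obtain ⟨Q0, hQ00, hpQ0, hQ0E⟩ : ∃ Q0 : W.toAffine.Point, Q0 ≠ 0 ∧ p • Q0 = 0 ∧ Q0 ∈ M.E1 := by
    by_contra hcon
    push Not at hcon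
    have h1 : (dS W p).filter (fun a => 1 < v a) = ∅ := by
      rw [Finset.filter_eq_empty_iff]
      intro a ha hva
      obtain ⟨P, hP0, hpP, rfl⟩ := (mem_dS_iff hΔ hodd).mp ha
      exact hcon P hP0 hpP ((mem_E1_iff' M hP0).2 hva)
    rw [h1, Finset.prod_empty, mul_one] at hprod
    exact hvp.ne hprod
  -- the torsion subgroup
  let T : AddSubgroup W.toAffine.Point := (nsmulAddMonoidHom p).ker
  have hT : ∀ Q, Q ∈ T ↔ p • Q = 0 := fun Q => Iff.rfl
  have hcT : Nat.card T = p ^ 2 := by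
    rw [← ncard_torsion hΔ hodd]
    rfl
  have hfT : Finite T := Nat.finite_of_card_ne_zero (by rw [hcT]; exact pow_ne_zero 2 hp.ne_zero)
  have hN := card_line hp (N := M.E1 ⊓ T) (V := T) inf_le_right (fun x hx => hx) hfT hcT.le
    (by
      intro h
      have : Q0 ∈ M.E1 ⊓ T := ⟨hQ0E, hpQ0⟩
      rw [h, AddSubgroup.mem_bot] at this
      exact hQ00 this)
    (by
      intro h
      have : Q1 ∈ M.E1 ⊓ T := by rw [h]; exact hpQ1
      exact hQ1 this.1)
  have hspan : ∀ P : W.toAffine.Point, P ≠ 0 → p • P = 0 → P ∈ M.E1 →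
      ∀ Q, p • Q = 0 → Q ∈ M.E1 → ∃ n : ℤ, Q = n • P := by
    intro P hP0 hpP hP Q hpQ hQ
    have hd := line_dichotomy hp hN.1 (AddSubgroup.zmultiples P)
    rcases hd with hd | hd
    · exact absurd (hd P ⟨hP, hpP⟩ (AddSubgroup.mem_zmultiples P)) hP0
    · obtain ⟨n, hn⟩ := AddSubgroup.mem_zmultiples_iff.mp (hd ⟨hQ, hpQ⟩)
      exact ⟨n, hn.symm⟩
  have hval : ∀ P Q : W.toAffine.Point, P ≠ 0 → p • P = 0 → P ∈ M.E1 → Q ≠ 0 → p • Q = 0 →
      Q ∈ M.E1 → v (xc P) ≤ v (xc Q) := by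
    intro P Q hP0 hpP hP hQ0 hpQ hQ
    obtain ⟨n, rfl⟩ := hspan P hP0 hpP hP Q hpQ hQ
    exact v_xc_zsmul_ge M hP0 hP n hQ0
  refine ⟨Q0, hQ00, hpQ0, hQ0E, hspan Q0 hQ00 hpQ0 hQ0E, ?_, ?_⟩
  · intro Q hQ0 hpQ hQ
    exact le_antisymm (hval _ _ hQ0 hpQ hQ hQ00 hpQ0 hQ0E) (hval _ _ hQ00 hpQ0 hQ0E hQ0 hpQ hQ)
  · -- counting
    have hfin : ((M.E1 ⊓ T : AddSubgroup W.toAffine.Point) : Set W.toAffine.Point).Finite := by
      have : Finite (M.E1 ⊓ T : AddSubgroup W.toAffine.Point) :=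
        Nat.finite_of_card_ne_zero (by rw [hN.1]; exact hp.ne_zero)
      exact Set.toFinite _
    set s := hfin.toFinset.erase 0 with hs
    have hmem : ∀ P, P ∈ s ↔ P ≠ 0 ∧ P ∈ M.E1 ∧ p • P = 0 := by
      intro P
      rw [hs, Finset.mem_erase, Set.Finite.mem_toFinset]
      rfl
    have hscard : s.card = p - 1 := by
      rw [hs, Finset.card_erase_of_mem, ← Set.ncard_eq_toFinset_card _ hfin]
      · congr 1
        exact hN.1
      · rw [Set.Finite.mem_toFinset]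
        exact zero_mem _
    have himg : s.image xc = (dS W p).filter (fun a => 1 < v a) := by
      ext a
      rw [Finset.mem_image, Finset.mem_filter, mem_dS_iff hΔ hodd]
      constructor
      · rintro ⟨P, hP, rfl⟩
        obtain ⟨h1, h2, h3⟩ := (hmem P).1 hP
        exact ⟨⟨P, h1, h3, rfl⟩, (mem_E1_iff' M h1).1 h2⟩
      · rintro ⟨⟨P, h1, h3, rfl⟩, hva⟩
        exact ⟨P, (hmem P).2 ⟨h1, (mem_E1_iff' M h1).2 hva, h3⟩, rfl⟩
    have hfib : ∀ a ∈ s.image xc, (s.filter fun P => xc P = a).card = 2 := by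
      intro a ha
      obtain ⟨P, hP, rfl⟩ := Finset.mem_image.mp ha
      obtain ⟨h1, h2, h3⟩ := (hmem P).1 hP
      have : (s.filter fun Q => xc Q = xc P) = {P, -P} := by
        ext Q
        rw [Finset.mem_filter, Finset.mem_insert, Finset.mem_singleton]
        constructor
        · rintro ⟨hQ, he⟩
          exact eq_or_eq_neg_of_xc_eq ((hmem Q).1 hQ).1 h1 he
        · rintro (rfl | rfl)
          · exact ⟨hP, rfl⟩
          · refine ⟨(hmem _).2 ⟨neg_ne_zero.2 h1, neg_mem h2, nsmul_neg_eq_zero h3⟩, ?_⟩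
            rcases P with _ | ⟨x, y, h⟩
            · exact absurd rfl h1
            · rfl
      rw [this, Finset.card_pair (ne_neg_of_odd hodd h1 h3)]
    have h5 := Finset.card_eq_sum_card_image xc s
    rw [Finset.sum_congr rfl hfib, Finset.sum_const, smul_eq_mul, himg, hscard] at h5
    have h6 : ((dS W p).filter (fun a => 1 < v a)).card = (p - 1) / 2 := by omega
    rw [← h6, ← Finset.prod_const]
    refine Eq.trans ?_ hprod
    congr 1
    refine Finset.prod_congr rfl fun a ha => ?_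
    rw [← himg] at ha
    obtain ⟨P, hP, rfl⟩ := Finset.mem_image.mp ha
    obtain ⟨h1, h2, h3⟩ := (hmem P).1 hP
    exact le_antisymm (hval _ _ hQ00 hpQ0 hQ0E h1 h3 h2)
      (hval _ _ h1 h3 h2 hQ00 hpQ0 hQ0E)

omit [DecidableEq K] in
/-- the valuation of `y` in the kernel of reduction -/
theorem v_y_sq (hI : IsInt v W) {x y : K} (h : W.toAffine.Equation x y) (hx : 1 < v x) :
    v (y ^ 2) = v (x ^ 3) := by
  have hx0 : 0 < v x := zero_lt_one.trans hx
  have hE := h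
  rw [equation_iff] at hE
  have hR : v (x ^ 3 + W.a₂ * x ^ 2 + W.a₄ * x + W.a₆) = v (x ^ 3) := by
    have e : x ^ 3 + W.a₂ * x ^ 2 + W.a₄ * x + W.a₆ =
      x ^ 3 + (W.a₂ * x ^ 2 + W.a₄ * x + W.a₆) := by ring
    rw [e]
    refine Valuation.map_add_eq_of_lt_left _ ?_
    have h23 : v (x ^ 2) < v (x ^ 3) := by
      rw [map_pow, map_pow]
      exact pow_lt_pow_right₀ hx (by norm_num)
    refine lt_of_le_of_lt (v.map_add_le (v.map_add_le ?_ ?_) ?_) h23
    · rw [map_mul]; exact mul_le_of_le_one_left' hI.a₂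
    · rw [map_mul, map_pow]
      refine (mul_le_of_le_one_left' hI.a₄).trans ?_
      rw [sq]; exact le_mul_of_one_le_left' hx.le
    · refine hI.a₆.trans ?_
      rw [map_pow]; exact one_le_pow_of_one_le' hx.le 2
  rw [← hR, ← hE]
  -- `v y > v x`
  have hyx : v x < v y := by
    by_contra hle
    push Not at hle
    have h1 : v (y ^ 2 + W.a₁ * x * y + W.a₃ * y) ≤ v (x ^ 2) := by
      rw [show v (x ^ 2) = v x * v x by rw [map_pow, sq]]
      refine v.map_add_le (v.map_add_le ?_ ?_) ?_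
      · rw [map_pow, sq]; exact mul_le_mul' hle hle
      · rw [map_mul, map_mul]
        exact mul_le_mul' (mul_le_of_le_one_left' hI.a₁) hle
      · rw [map_mul]
        exact mul_le_mul' (hI.a₃.trans hx.le) hle
    rw [hE, hR, map_pow, map_pow] at h1
    exact absurd h1 (not_le.2 (pow_lt_pow_right₀ hx (by norm_num)))
  symm
  have e : y ^ 2 + W.a₁ * x * y + W.a₃ * y = y ^ 2 + (W.a₁ * x * y + W.a₃ * y) := by ring
  rw [e]
  refine Valuation.map_add_eq_of_lt_left _ ?_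
  have hy0 : 0 < v y := hx0.trans hyx
  refine lt_of_le_of_lt (b := v x * v y) (v.map_add_le ?_ ?_) ?_
  · rw [map_mul, map_mul]
    exact mul_le_mul' (mul_le_of_le_one_left' hI.a₁) le_rfl
  · rw [map_mul]
    exact mul_le_mul' (hI.a₃.trans hx.le) le_rfl
  · rw [map_pow, sq]
    exact mul_lt_mul_of_pos_right hyx hy0

/-- generators of the `p`-torsion -/
theorem span_torsion [IsAlgClosed K] [CharZero K] (hΔ : W.Δ ≠ 0) {p : ℕ} (hp : p.Prime)
    (hp2 : p ≠ 2) {Q0 Q1 : W.toAffine.Point} (h0 : Q0 ≠ 0) (hp0 : p • Q0 = 0)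
    (hpQ1 : p • Q1 = 0) (hQ1 : ∀ n : ℤ, Q1 ≠ n • Q0) (Q : W.toAffine.Point) (hQ : p • Q = 0) :
    ∃ a b : ℤ, Q = a • Q0 + b • Q1 := by
  let T : AddSubgroup W.toAffine.Point := (nsmulAddMonoidHom p).ker
  have hodd : Odd p := hp.odd_of_ne_two hp2
  have hcT : Nat.card T = p ^ 2 := by
    rw [← ncard_torsion hΔ hodd]
    rfl
  have hfT : Finite T :=
    Nat.finite_of_card_ne_zero (by rw [hcT]; exact pow_ne_zero 2 hp.ne_zero)
  have hnot : Q1 ∉ AddSubgroup.zmultiples Q0 := by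
    intro h
    obtain ⟨n, hn⟩ := AddSubgroup.mem_zmultiples_iff.1 h
    exact hQ1 n hn.symm
  have hN := card_line hp (N := AddSubgroup.zmultiples Q0) (V := T)
    (by rw [AddSubgroup.zmultiples_le]; exact hp0) (fun x hx => hx) hfT hcT.le
    (by rw [Ne, AddSubgroup.zmultiples_eq_bot]; exact h0)
    (by
      intro h
      exact hnot (by rw [h]; exact hpQ1))
  have hsup := sup_eq_of_not_mem hp hN.1 hcT
    (by rw [AddSubgroup.zmultiples_le]; exact hp0) (y := Q1) hpQ1 hnot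
  have h1 : Q ∈ AddSubgroup.zmultiples Q0 ⊔ AddSubgroup.zmultiples Q1 := by
    rw [hsup]; exact hQ
  obtain ⟨y, hy, z, hz, rfl⟩ := AddSubgroup.mem_sup.1 h1
  obtain ⟨a, rfl⟩ := AddSubgroup.mem_zmultiples_iff.1 hy
  obtain ⟨b, rfl⟩ := AddSubgroup.mem_zmultiples_iff.1 hz
  exact ⟨a, b, rfl⟩

end gen

local notation "Ω" => AlgebraicClosure ℚ

variable {A : ValuationSubring (AlgebraicClosure ℚ)} {p : ℕ} [hp : Fact p.Prime]

/-- the exact valuation -/
theorem w_of_v (hA : A.LiesOverPrime p) (hp2 : p ≠ 2) {x : Ω} (hx : x ≠ 0)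
    (hv : A.valuation (p : Ω) * A.valuation x ^ ((p - 1) / 2) = 1) :
    (rval A p hA).w x = -2 / (p - 1) := by
  have hp0' : (p : Ω) ≠ 0 := Nat.cast_ne_zero.2 hp.out.ne_zero
  rw [← map_pow, ← map_mul, ← _root_.map_one A.valuation,
    v_eq_iff hA (mul_ne_zero hp0' (pow_ne_zero _ hx)) one_ne_zero,
    w_mul hp0' (pow_ne_zero _ hx), w_pow hx, (rval A p hA).w_p, w_one] at hv
  obtain ⟨k, hk⟩ := hp.out.odd_of_ne_two hp2
  have e1 : (p - 1) / 2 = k := by omega
  have e2 : (p : ℚ) = 2 * k + 1 := by exact_mod_cast hk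
  have hk0 : (k : ℚ) ≠ 0 := by
    have : k ≠ 0 := by
      rintro rfl
      exact hp.out.one_lt.ne' (by omega)
    exact_mod_cast this
  rw [e1] at hv
  rw [e2]
  have e3 : (2 * (k : ℚ) + 1 - 1) = 2 * k := by ring
  rw [e3, eq_div_iff (by positivity)]
  linear_combination 2 * hv

theorem v_two (hA : A.LiesOverPrime p) (hp2 : p ≠ 2) : A.valuation (2 : Ω) = 1 := by
  have : ¬ (p : ℤ) ∣ ((2 : ℕ) : ℤ) := by
    intro h
    rw [Int.natCast_dvd_natCast, Nat.prime_dvd_prime_iff_eq hp.out Nat.prime_two] at h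
    exact hp2 h
  exact_mod_cast val_int_eq_one_of_not_dvd A.valuation hp.out (v_p_lt_one hA) this

variable [DecidableEq (AlgebraicClosure ℚ)] {W : Affine ℚ}

/-- the uniformizing element of the line in the kernel of reduction -/
theorem exists_z (hA : A.LiesOverPrime p) (hI : IsInt A.valuation (W⁄Ω)) {Q0 : (W⁄Ω).Point}
    (h0 : Q0 ≠ 0) (hv : 1 < A.valuation (xc Q0))
    (hw : (rval A p hA).w (xc Q0) = -2 / (p - 1)) :
    ∃ z ∈ FD A {Q0}, z ≠ 0 ∧ (rval A p hA).w z = 1 / (p - 1) := by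
  refine ⟨xc Q0 / yc Q0, div_mem (xc_mem_FD rfl) (yc_mem_FD rfl), ?_⟩
  rcases Q0 with _ | ⟨x, y, h⟩
  · exact absurd rfl h0
  rw [xc_some] at hv hw
  rw [xc_some, yc_some]
  have hx0 : x ≠ 0 := by
    rintro rfl
    rw [_root_.map_zero] at hv
    exact absurd hv (not_lt.2 zero_le)
  have h1 := v_y_sq hI h.1 hv
  have hy0 : y ≠ 0 := by
    rintro rfl
    rw [zero_pow two_ne_zero, _root_.map_zero] at h1
    exact (pow_ne_zero 3 hx0) ((Valuation.zero_iff _).1 h1.symm)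
  rw [v_eq_iff hA (pow_ne_zero 2 hy0) (pow_ne_zero 3 hx0), w_pow hy0, w_pow hx0, hw] at h1
  refine ⟨div_ne_zero hx0 hy0, ?_⟩
  rw [w_div hx0 hy0, hw]
  push_cast at h1
  have e4 : (-2 : ℚ) / (p - 1) = -2 * (1 / (p - 1)) := by ring
  rw [e4] at h1 ⊢
  linarith

end Fermat.Agent.PRG
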