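import Fermat.Agent.PRem.Asm9
import Fermat.Agent.PRem.Asm4
import Fermat.Agent.ThmC.Gen

/-!
# Thickness of the nodes is prime to `p`, also for `p = 3`
-/

set_option autoImplicit false
set_option linter.unusedSectionVars false
set_option linter.style.haveILetI false

noncomputable section

namespace Fermat.Agent.PRG

open ModularCurve Polynomial IntermediateField Fermat.Agent.ModPoly Fermat.Agent.Red
  Fermat.Agent.RedMod Fermat.Agent.Cusp Fermat.Agent.SemiSt AlgebraicCurve Fermat.Agent.Curve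
  Fermat.Agent.RR Fermat.Agent.Nod Fermat.Agent.Flat Fermat.Agent.FlatRam Fermat.Agent.Places
  Fermat.Agent.PRem

local notation "Ω" => AlgebraicClosure ℚ

/-- admissible pairs `(p, M)` -/
def Ok (p M : ℕ) : Prop := 5 ≤ p ∨ (p = 3 ∧ nuTwo M = 0 ∧ nuThree M = 0)

theorem Ok.three_le {p M : ℕ} (h : Ok p M) : 3 ≤ p := by
  rcases h with h | ⟨h, -⟩ <;> omega

section Char3

variable {k : Type*} [Field k] [CharP k 3]

theorem eisC_three : eisC k = 1 := by
  have h : eisenstein4.map (Int.castRingHom k) = 1 := by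
    ext n
    rw [PowerSeries.coeff_map, eisenstein4, PowerSeries.coeff_mk, PowerSeries.coeff_one]
    split_ifs with h0
    · simp
    · rw [map_mul]
      have : (Int.castRingHom k) 240 = 0 := by
        have h1 : ((240 : ℕ) : k) = 0 := (CharP.cast_eq_zero_iff k 3 240).2 (by norm_num)
        have h2 : (Int.castRingHom k) 240 = ((240 : ℕ) : k) := by simp
        rw [h2, h1]
      rw [this, zero_mul]
  rw [eisC, h, map_one]

theorem jq_ne : jqModC k ≠ 0 := by
  intro h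
  have := jqModC_mul_delta k
  rw [h, zero_mul, eisC_three, one_pow] at this
  exact zero_ne_one this

theorem deltaC_three : deltaC k = (jqModC k)⁻¹ := by
  have h := jqModC_mul_delta k
  rw [eisC_three, one_pow] at h
  exact eq_inv_of_mul_eq_one_right h

theorem rm_three : (rm k (pp 3))⁻¹ = jqModC k ^ 2 := by
  have e1 : Dc (1 : kˣ) 1 = (jqModC k)⁻¹ := by
    rw [Dc, deltaC_three, map_inv₀]
    congr 1
    exact Jc_one_one
  have e2 : Dc (1 : kˣ) (pp 3) = (jqModC k ^ 3)⁻¹ := by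
    rw [Dc, deltaC_three, map_inv₀, ← qExpand_jqModC (q := 3)]
    congr 1
    rw [qExpand_eq_Sb 3 (pp 3) rfl]
  have := jq_ne (k := k)
  rw [rm, e1, e2]
  field_simp

end Char3

section Main

variable {A : ValuationSubring (AlgebraicClosure ℚ)} {p : ℕ} [hp : Fact p.Prime]
  {M : ℕ} [NeZero M] {k : Type*} [Field k] [Algebra A k] [CharP k p] [IsAlgClosed k]
  {hk : Function.Surjective (algebraMap A k)} {hco : p.Coprime M} {hM : (M : k) ≠ 0} {b : A}
  [Algebra A (FF Ω (p * M))] [IsScalarTower A Ω (FF Ω (p * M))]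
  [Algebra A (FF k M)] [IsScalarTower A k (FF k M)]
  [FunField k (FF k M)] [FunField Ω (FF Ω M)] [FunField Ω (FF Ω (p * M))]
  {E : IntermediateField (K0 A) Ω} [FiniteDimensional (K0 A) E]
  {e : ℕ} {ϖ : A} {Q : RatStr (ng Ω hco hk hM b)}

theorem not_dvd_of_five (h5 : 5 ≤ p) {ν k' : ℤ} (hk' : 12 = ν * k') : ¬ (p : ℤ) ∣ k' := by
  intro hd
  have h1 : (p : ℤ) ∣ 12 := hd.trans ⟨ν, by rw [hk']; ring⟩
  have h2 : p ∣ 12 := by exact_mod_cast h1
  have h3 : p ∣ 2 * 2 * 3 := h2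
  rcases (Nat.Prime.dvd_mul hp.out).1 h3 with h4 | h4
  · rcases (Nat.Prime.dvd_mul hp.out).1 h4 with h5 | h5 <;>
      exact absurd (Nat.le_of_dvd (by norm_num) h5) (by omega)
  · exact absurd (Nat.le_of_dvd (by norm_num) h4) (by omega)

/-- **the thickness is prime to `p`** -/
theorem thick_ok (hOk : Ok p M) (ι : Ω →+* ℂ)
    (H : NodMod (ng Ω hco hk hM b) hk (ng_hspan hco hk hM b) (fd k p M).nodes)
    (R : RS E 1 ϖ Q) (j : Nd (ng Ω hco hk hM b) hk (fd k p M).nodes) {k' : ℤ}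
    (hk' : 12 = ((fd k p M).nodes.v j).ord (r1 (ng Ω hco hk hM b) (rF Ω p M)⁻¹) * k') :
    ¬ (p : ℤ) ∣ k' := by
  rcases hOk with h5 | ⟨h3, hn2, hn3⟩
  · exact not_dvd_of_five h5 hk'
  subst h3
  obtain ⟨c₀, T⟩ := R.exists_thick one_pos
  have hν := T.pos H j
  have hr := rd_rm (A := A) (K := Ω) (k := k) (pp 3)
  have h1 : ((r1 (ng Ω hco hk hM b) (rF Ω 3 M)⁻¹ : FF k M) : LaurentSeries k) =
      (rm k (pp 3))⁻¹ := r1_eq T.mem (hr.inv (rm_ne_zero (k := k) (pp 3)))
  have h2 : r1 (ng Ω hco hk hM b) (rF Ω 3 M)⁻¹ = jF' k M ^ 2 := by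
    apply Subtype.ext
    rw [h1, rm_three, SubmonoidClass.coe_pow, ThmC.coe_jF']
  rw [h2, ord_pow] at hν hk'
  push_cast at hν hk'
  have h4 : 0 ≤ ((fd k 3 M).nodes.v j).ord (jF' k M) := by omega
  obtain ⟨m, hm⟩ := ThmC.six_dvd_ord (A := A) (K := Ω) ι hk hM hn2 hn3 h4
  rw [hm] at hk'
  have h5 : m * k' = 1 := by linarith
  intro hd
  have h6 : k' ∣ 1 := ⟨m, by rw [mul_comm]; exact h5.symm⟩
  have h7 := hd.trans h6
  have h8 := Int.le_of_dvd one_pos h7
  norm_num at h8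

end Main

end Fermat.Agent.PRG
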